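import Fermat.Agent.EIS.Upper.Identities
import Fermat.Agent.MOD.CuspCoeff
import Fermat.Prelude.Def_CuspForm_HeckeLocal
import Fermat.Prelude.Def_CuspForm_HeckeEvalForms
import Fermat.Prelude.Def_HeckeGalois_EichlerShimura
import Mathlib.LinearAlgebra.Dual.Lemmas

/-!
# A character of the Hecke algebra killing the Eisenstein ideal gives an Eisenstein congruence
-/

set_option autoImplicit false

noncomputable section

open CongruenceSubgroup ModularFormClass CuspForm ModularCurve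

namespace Fermat.Agent.EIS

variable {p : ℕ} [hp : Fact p.Prime]

/-- The image of a Hecke generator in the lattice algebra. -/
def latticeHeckeGen (p : ℕ) [Fact p.Prime] (ℓ : Nat.Primes) : ↥(heckeLatticeAlgebra p ∅) :=
  latticeRestrictHom p ∅ (heckeFormsGen p 2 ℓ)

/-- The integral coefficients of an element of the lattice. -/
def icoeff (p : ℕ) (n : ℕ) : ↥(intLattice p 2) →ₗ[ℤ] ℤ where
  toFun g := ((MOD.mem_intLattice_iff_qCoeff g.1).mp g.2 n).choose
  map_add' g g' := by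
    rw [← Int.cast_inj (α := ℂ), Int.cast_add,
      ← ((MOD.mem_intLattice_iff_qCoeff g.1).mp g.2 n).choose_spec,
      ← ((MOD.mem_intLattice_iff_qCoeff g'.1).mp g'.2 n).choose_spec,
      ← ((MOD.mem_intLattice_iff_qCoeff (g + g').1).mp (g + g').2 n).choose_spec,
      ← MOD.cuspCoeff_apply, Submodule.coe_add, map_add]
    rfl
  map_smul' c g := by
    rw [← Int.cast_inj (α := ℂ), RingHom.id_apply, smul_eq_mul, Int.cast_mul,
      ← ((MOD.mem_intLattice_iff_qCoeff g.1).mp g.2 n).choose_spec,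
      ← ((MOD.mem_intLattice_iff_qCoeff (c • g).1).mp (c • g).2 n).choose_spec,
      ← MOD.cuspCoeff_apply, Submodule.coe_smul, map_zsmul, zsmul_eq_mul]
    rfl

omit hp in
theorem icoeff_spec (n : ℕ) (g : ↥(intLattice p 2)) :
    qCoeff (g : CuspForm (Gamma0 p) 2) n = (icoeff p n g : ℂ) :=
  ((MOD.mem_intLattice_iff_qCoeff g.1).mp g.2 n).choose_spec

theorem icoeff_latticeHeckeGen (ℓ : Nat.Primes) (n : ℕ) (g : ↥(intLattice p 2)) :
    icoeff p n ((latticeHeckeGen p ℓ).1 g) =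
      if (ℓ : ℕ) = p then icoeff p (n * p) g
      else icoeff p (n * ℓ) g + if (ℓ : ℕ) ∣ n then (ℓ : ℤ) * icoeff p (n / ℓ) g else 0 := by
  rw [← Int.cast_inj (α := ℂ), ← icoeff_spec]
  have hact : (((latticeHeckeGen p ℓ).1 g : ↥(intLattice p 2)) : CuspForm (Gamma0 p) 2) =
      (heckeFormsGen p 2 ℓ : Module.End ℂ (CuspForm (Gamma0 p) 2)) g.1 := rfl
  rw [hact]
  by_cases hℓp : (ℓ : ℕ) = p
  · have hd : (ℓ : ℕ) ∣ p := dvd_of_eq hℓp
    rw [if_pos hℓp, heckeFormsGen_of_dvd hd, heckeAlgebra.coe_U, MOD.qCoeff_heckeULin ℓ.2 hd,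
      icoeff_spec, hℓp]
  · have hd : ¬ (ℓ : ℕ) ∣ p := fun h ↦ hℓp ((Nat.prime_dvd_prime_iff_eq ℓ.2 hp.out).mp h)
    rw [if_neg hℓp, heckeFormsGen_of_not_dvd hd, heckeAlgebra.coe_T, MOD.qCoeff_heckeTLin ℓ.2 hd,
      icoeff_spec, icoeff_spec]
    by_cases hn : (ℓ : ℕ) ∣ n <;> simp [hn]

theorem icoeff_congr {A : Type*} [CommRing A] (g : ↥(intLattice p 2))
    (ψ : ↥(heckeLatticeAlgebra p ∅) → A)
    (h1 : ∀ t, (icoeff p 1 (t.1 g) : A) = ψ t)
    (hψ : ∀ ℓ t, ψ (latticeHeckeGen p ℓ * t) = (eisensteinSystem p ℓ : A) * ψ t) :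
    ∀ n : ℕ, n ≠ 0 → ∀ t, (icoeff p n (t.1 g) : A) = (sigmaPrime p n : A) * ψ t := by
  intro n
  induction n using Nat.strong_induction_on with
  | _ n ih =>
    intro hn t
    rcases eq_or_ne n 1 with rfl | hn1
    · simp [h1, sigmaPrime, hp.out.ne_one]
    · set ℓ : Nat.Primes := ⟨n.minFac, Nat.minFac_prime hn1⟩
      obtain ⟨m, hm⟩ : (ℓ : ℕ) ∣ n := n.minFac_dvd
      rw [mul_comm] at hm
      have hm0 : m ≠ 0 := fun h ↦ hn (by simp [hm, h])
      have hmn : m < n := by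
        rw [hm]; exact lt_mul_of_one_lt_right (Nat.pos_of_ne_zero hm0) ℓ.2.one_lt
      have hrec := icoeff_latticeHeckeGen ℓ m (t.1 g)
      have hIH := ih m hmn hm0 (latticeHeckeGen p ℓ * t)
      rw [hψ, show (latticeHeckeGen p ℓ * t).1 g = (latticeHeckeGen p ℓ).1 (t.1 g) from rfl,
        hrec] at hIH
      by_cases hℓp : (ℓ : ℕ) = p
      · rw [if_pos hℓp, eisensteinSystem_of_dvd (dvd_of_eq hℓp), Int.cast_one, one_mul] at hIH
        rw [hm, hℓp, hIH, sigmaPrime_mul_self p hm0]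
      · rw [if_neg hℓp, eisensteinSystem_of_not_dvd
          (fun h ↦ hℓp ((Nat.prime_dvd_prime_iff_eq ℓ.2 hp.out).mp h))] at hIH
        have hσ := congrArg (Int.cast : ℤ → A) (sigmaPrime_mul_prime p ℓ.2 hℓp hm0)
        rw [hm]
        by_cases hd : (ℓ : ℕ) ∣ m
        · have hlt : m / ℓ < n := lt_of_le_of_lt (Nat.div_le_self _ _) hmn
          have h' := ih (m / ℓ) hlt
            (Nat.div_pos (Nat.le_of_dvd (Nat.pos_of_ne_zero hm0) hd) ℓ.2.pos).ne' t
          simp only [hd, if_true] at hIH hσ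
          push_cast at hIH hσ ⊢
          rw [h'] at hIH
          linear_combination hIH - ψ t * hσ
        · simp only [hd, if_false, add_zero] at hIH hσ
          push_cast at hIH hσ ⊢
          linear_combination hIH - ψ t * hσ

/-- The pairing `(g, t) ↦ a₁(t g)`. -/
def heckePairing (p : ℕ) [Fact p.Prime] :
    ↥(intLattice p 2) →ₗ[ℤ] ↥(heckeLatticeAlgebra p ∅) →ₗ[ℤ] ℤ :=
  LinearMap.mk₂ ℤ (fun g t ↦ icoeff p 1 (t.1 g))
    (fun g g' t ↦ by simp only [map_add])
    (fun c g t ↦ by simp only [map_smul])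
    (fun g t t' ↦ by
      show icoeff p 1 ((t.1 + t'.1) g) = _
      rw [LinearMap.add_apply, map_add])
    (fun c g t ↦ by
      show icoeff p 1 ((c • t.1) g) = _
      rw [LinearMap.smul_apply, map_smul])

theorem intLattice_eq_zero {g : ↥(intLattice p 2)}
    (h : ∀ t : ↥(heckeLatticeAlgebra p ∅), icoeff p 1 (t.1 g) = 0) : g = 0 := by
  have := icoeff_congr (A := ℤ) g (fun _ ↦ 0) (fun t ↦ by simp [h t]) (fun ℓ t ↦ by simp)
  refine Subtype.ext (MOD.cuspForm_ext_qCoeff fun n ↦ ?_)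
  rw [Submodule.coe_zero, ← MOD.cuspCoeff_apply _ n, ← MOD.cuspCoeff_apply (0 : CuspForm _ _) n,
    map_zero, MOD.cuspCoeff_apply]
  rcases eq_or_ne n 0 with rfl | hn
  · exact MOD.cuspCoeff_zero_index _
  · rw [icoeff_spec, show g = (1 : ↥(heckeLatticeAlgebra p ∅)).1 g from rfl]
    have h' := this n hn 1
    simp only [mul_zero] at h'
    exact_mod_cast h'

/-- For a pairing with trivial kernels on both sides, the image has finite index. -/
theorem exists_smul_mem_range_of_injective {L U : Type*} [AddCommGroup L] [AddCommGroup U]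
    [Module ℤ L] [Module ℤ U] [Module.Finite ℤ L] [Module.Free ℤ L] [Module.Finite ℤ U]
    [Module.Free ℤ U] (P : L →ₗ[ℤ] U →ₗ[ℤ] ℤ) (hP : Function.Injective P)
    (hP' : Function.Injective P.flip) (φ : U →ₗ[ℤ] ℤ) :
    ∃ m : ℤ, m ≠ 0 ∧ m • φ ∈ LinearMap.range P := by
  have h1 : Module.finrank ℤ U ≤ Module.finrank ℤ L :=
    (LinearMap.finrank_le_finrank_of_injective hP').trans (by rw [Module.finrank_linearMap_self])
  have h2 := Submodule.finrank_quotient_add_finrank (LinearMap.range P)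
  rw [Module.finrank_linearMap_self, LinearMap.finrank_range_of_inj hP] at h2
  have hq : Module.finrank ℤ ((U →ₗ[ℤ] ℤ) ⧸ LinearMap.range P) = 0 := by omega
  obtain ⟨m, hm0, hm⟩ := Module.finrank_eq_zero_iff.mp hq (Submodule.Quotient.mk φ)
  rw [← Submodule.Quotient.mk_smul, Submodule.Quotient.mk_eq_zero] at hm
  exact ⟨m, hm0, hm⟩

theorem heckePairing_surjective : Function.Surjective (heckePairing p) := by
  intro φ
  have : Module.Finite ℤ ↥(intLattice p 2) := intLattice.moduleFinite p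
  have : Module.Free ℤ ↥(intLattice p 2) := intLattice.moduleFree p
  have hinj : Function.Injective (heckePairing p) :=
    (injective_iff_map_eq_zero _).mpr fun g hg ↦ intLattice_eq_zero fun t ↦
      LinearMap.congr_fun hg t
  have hinj' : Function.Injective (heckePairing p).flip :=
    (injective_iff_map_eq_zero _).mpr fun t ht ↦ Subtype.ext (LinearMap.ext fun g ↦
      intLattice_eq_zero fun s ↦ by
        rw [show s.1 (t.1 g) = (s * t).1 g from rfl, mul_comm,
          show (t * s).1 g = t.1 (s.1 g) from rfl]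
        exact LinearMap.congr_fun ht (s.1 g))
  obtain ⟨m, hm0, hm⟩ := exists_smul_mem_range_of_injective (heckePairing p) hinj hinj' φ
  obtain ⟨g, hg⟩ := hm
  have hdvd : ∀ n, m ∣ icoeff p n g := by
    intro n
    rcases eq_or_ne n 0 with rfl | hn
    · have : icoeff p 0 g = 0 := by
        rw [← Int.cast_inj (α := ℂ), ← icoeff_spec, MOD.cuspCoeff_zero_index, Int.cast_zero]
      rw [this]; exact dvd_zero _
    · have h := icoeff_congr (A := ZMod m.natAbs) g (fun _ ↦ 0) (fun t ↦ by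
        rw [ZMod.intCast_zmod_eq_zero_iff_dvd, Int.natAbs_dvd]
        exact ⟨φ t, LinearMap.congr_fun hg t⟩) (fun ℓ t ↦ by simp) n hn 1
      rw [mul_zero, ZMod.intCast_zmod_eq_zero_iff_dvd, Int.natAbs_dvd] at h
      exact h
  choose b hb using hdvd
  have hmem : (m : ℂ)⁻¹ • (g : CuspForm (Gamma0 p) 2) ∈ intLattice p 2 := by
    refine (MOD.mem_intLattice_iff_qCoeff _).mpr fun n ↦ ⟨b n, ?_⟩
    rw [← MOD.cuspCoeff_apply, map_smul, MOD.cuspCoeff_apply, icoeff_spec, hb, smul_eq_mul,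
      Int.cast_mul, inv_mul_cancel_left₀ (Int.cast_ne_zero.mpr hm0)]
  refine ⟨⟨_, hmem⟩, smul_right_injective _ hm0 ?_⟩
  show m • heckePairing p ⟨_, hmem⟩ = m • φ
  rw [← map_smul, ← hg]
  congr 1
  refine Subtype.ext ?_
  rw [Submodule.coe_smul, ← Int.cast_smul_eq_zsmul ℂ, smul_smul,
    mul_inv_cancel₀ (Int.cast_ne_zero.mpr hm0), one_smul]

theorem exists_int_lift {U : Type*} [AddCommGroup U] [Module ℤ U] [Module.Free ℤ U] {M : ℕ}
    (χ : U →+ ZMod M) : ∃ φ : U →ₗ[ℤ] ℤ, ∀ t, (φ t : ZMod M) = χ t := by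
  let χ' : U →ₗ[ℤ] ZMod M :=
    { toFun := χ
      map_add' := map_add χ
      map_smul' := fun c x ↦ by simpa using map_intCast_smul χ ℤ ℤ c x }
  obtain ⟨φ, hφ⟩ := Module.projective_lifting_property
    ((Int.castAddHom (ZMod M)).toIntLinearMap) χ' ZMod.intCast_surjective
  exact ⟨φ, fun t ↦ LinearMap.congr_fun hφ t⟩

/-- A character of the Hecke algebra killing the Eisenstein ideal comes from an integral cusp form
congruent to the Eisenstein series. -/
theorem exists_cuspForm_congr (M : ℕ) (χ : ↥(heckeLatticeAlgebra p ∅) →+* ZMod M)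
    (hI : Ideal.map ((latticeRestrictHom p ∅).toRingHom.comp (heckeEvalForms p 2))
      (eisensteinIdeal p) ≤ RingHom.ker χ) :
    ∃ (f : CuspForm (Gamma0 p) 2) (a : ℕ → ℤ), (∀ n, qCoeff f n = (a n : ℂ)) ∧ a 0 = 0 ∧
      ∀ n, n ≠ 0 → (M : ℤ) ∣ a n - sigmaPrime p n := by
  have hgen : ∀ ℓ, χ (latticeHeckeGen p ℓ) = (eisensteinSystem p ℓ : ZMod M) := by
    intro ℓ
    have hmem : heckeGen ℓ - MvPolynomial.C (eisensteinSystem p ℓ) ∈ eisensteinIdeal p :=
      heckeGen_sub_mem_eigenIdeal _ ℓ _ rfl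
    have h := RingHom.mem_ker.mp (hI (Ideal.mem_map_of_mem _ hmem))
    rw [map_sub, RingHom.comp_apply, heckeEvalForms_heckeGen,
      show MvPolynomial.C (eisensteinSystem p ℓ) = ((eisensteinSystem p ℓ : ℤ) : HeckeAlg) from
        eq_intCast MvPolynomial.C _, map_intCast, map_sub, map_intCast] at h
    exact sub_eq_zero.mp h
  obtain ⟨φ, hφ⟩ := exists_int_lift (U := ↥(heckeLatticeAlgebra p ∅)) χ.toAddMonoidHom
  obtain ⟨g, hg⟩ := heckePairing_surjective φ
  have h1 : ∀ t : ↥(heckeLatticeAlgebra p ∅), icoeff p 1 (t.1 g) = φ t := fun t ↦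
    LinearMap.congr_fun hg t
  let ψ : ↥(heckeLatticeAlgebra p ∅) → ZMod M := fun t ↦ χ t
  have h2 : ∀ t : ↥(heckeLatticeAlgebra p ∅), (icoeff p 1 (t.1 g) : ZMod M) = ψ t := fun t ↦
    (congrArg Int.cast (h1 t)).trans (hφ t)
  have h3 : ∀ ℓ t, ψ (latticeHeckeGen p ℓ * t) = (eisensteinSystem p ℓ : ZMod M) * ψ t :=
    fun ℓ t ↦ (map_mul χ _ _).trans (congrArg (fun z ↦ z * ψ t) (hgen ℓ))
  have h := icoeff_congr (A := ZMod M) g ψ h2 h3
  have hact : ((1 : ↥(heckeLatticeAlgebra p ∅)).1) g = g := rfl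
  have hone : ψ 1 = 1 := by show χ 1 = 1; exact map_one χ
  clear_value ψ
  refine ⟨g.1, fun n ↦ icoeff p n g, fun n ↦ icoeff_spec n g, ?_, fun n hn ↦ ?_⟩
  · rw [← Int.cast_inj (α := ℂ), ← icoeff_spec, MOD.cuspCoeff_zero_index, Int.cast_zero]
  · have h' := h n hn 1
    rw [← ZMod.intCast_zmod_eq_zero_iff_dvd, Int.cast_sub, sub_eq_zero]
    exact ((congrArg (fun z ↦ ((icoeff p n z : ℤ) : ZMod M)) hact.symm).trans h').trans
      ((congrArg (fun z ↦ (sigmaPrime p n : ZMod M) * z) hone).trans (mul_one _))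

end Fermat.Agent.EIS

end
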