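import Fermat.Agent.EIS.QSer
import Fermat.Agent.EIS.Modular
import Fermat.Agent.MF.JExpansion

/-!
# Level one forms of small weight with vanishing first coefficients modulo an ideal

A level one form of weight `4 * b` with coefficients in a ring `R` of complex numbers whose first
`N` coefficients vanish in a quotient `Q` has vanishing `N`-th coefficient in `Q` if `b < 3 * N`.
-/

set_option autoImplicit false

noncomputable section

open Filter UpperHalfPlane ModularGroup Topology Matrix.SpecialLinearGroup
open scoped Manifold MatrixGroups ModularForm OnePoint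

namespace Fermat.Agent.EIS

local notation "castC" => Int.castRingHom ℂ

theorem isQSer_of_mem_qFunctions {f : ℍ → ℂ} (hf : f ∈ Fermat.Agent.MF.qFunctions) :
    IsQSer 1 f (qExpansion 1 f) :=
  fun τ ↦ Fermat.Agent.MF.hasSum_of_mem_qFunctions hf τ

theorem isQSer_eisensteinFour :
    IsQSer 1 (⇑ModularForm.E₄) (ModularCurve.eisenstein4.map castC) :=
  Fermat.Agent.MF.qExpansion_E4 ▸ isQSer_of_mem_qFunctions Fermat.Agent.MF.mem_qFunctions_E4

theorem isQSer_discriminant :
    IsQSer 1 ModularForm.discriminant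
      (PowerSeries.X * ModularCurve.dedekindEtaUnit.map castC) :=
  Fermat.Agent.MF.qExpansion_discriminant ▸
    isQSer_of_mem_qFunctions Fermat.Agent.MF.mem_qFunctions_discriminant

theorem IsQSer.npow {h : ℝ} {f : ℍ → ℂ} {S : PowerSeries ℂ} (hh : 0 < h) (hf : IsQSer h f S) :
    ∀ n : ℕ, IsQSer h (f ^ n) (S ^ n)
  | 0 => by
    rw [pow_zero, pow_zero, ← map_one (PowerSeries.C (R := ℂ))]
    exact (isQSer_const (h := h) 1).congr fun τ ↦ rfl
  | n + 1 => by simpa [pow_succ] using (IsQSer.npow hh hf n).mul hh hf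

theorem eisensteinFour_pow_slash (γ : SL(2, ℤ)) :
    ∀ b : ℕ, ((⇑ModularForm.E₄) ^ b) ∣[(4 * b : ℤ)] γ = (⇑ModularForm.E₄) ^ b
  | 0 => by simpa using ModularForm.is_invariant_one γ
  | b + 1 => by
    rw [pow_succ, show ((4 : ℤ) * ((b + 1 : ℕ) : ℤ)) = 4 * (b : ℤ) + 4 by push_cast; ring,
      ModularForm.mul_slash_SL2, eisensteinFour_pow_slash γ b]
    congr 1
    exact SlashInvariantFormClass.slash_action_eq ModularForm.E₄ _ ⟨γ, rfl⟩

theorem map_castRingHom_map {R : Type*} [CommRing R] (ι : R →+* ℂ) (S : PowerSeries ℤ) :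
    PowerSeries.map ι (S.map (Int.castRingHom R)) = S.map castC := by
  ext n
  simp

theorem map_coeff_mul_eq_zero {R Q : Type*} [CommRing R] [CommRing Q] (π : R →+* Q)
    {S T : PowerSeries R} {n : ℕ} (h : ∀ i ≤ n, π (S.coeff i) = 0) :
    π ((S * T).coeff n) = 0 := by
  rw [PowerSeries.coeff_mul, map_sum]
  refine Finset.sum_eq_zero fun x hx ↦ ?_
  rw [map_mul, h _ ((by have := Finset.HasAntidiagonal.mem_antidiagonal.mp hx; omega)), zero_mul]

/-- The valence bound modulo an ideal, in level one and weight `4 * b`. -/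
theorem levelOne_coeff_eq_zero_of_lt {R Q : Type*} [CommRing R] [CommRing Q] (ι : R →+* ℂ)
    (hι : Function.Injective ι) (π : R →+* Q) {N b : ℕ} (hb : b < 3 * N) {g : ℍ → ℂ}
    (hinv : ∀ γ : SL(2, ℤ), g ∣[(4 * b : ℤ)] γ = g) {A : PowerSeries R}
    (hA : IsQSer 1 g (PowerSeries.map ι A)) (h0 : ∀ n < N, π (A.coeff n) = 0) :
    π (A.coeff N) = 0 := by
  induction N generalizing b g A with
  | zero => omega
  | succ N ih =>
    have ha : π (A.coeff 0) = 0 := h0 0 N.succ_pos
    set e : PowerSeries R := ModularCurve.eisenstein4.map (Int.castRingHom R) with he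
    set u : PowerSeries R := ModularCurve.dedekindEtaUnit.map (Int.castRingHom R) with hu
    set u' : PowerSeries R := ModularCurve.dedekindEtaUnitInv.map (Int.castRingHom R) with hu'
    set D : PowerSeries R := A - PowerSeries.C (A.coeff 0) * e ^ b with hD
    set D₁ : PowerSeries R := PowerSeries.mk fun n ↦ D.coeff (n + 1) with hD₁
    set A' : PowerSeries R := D₁ * u' with hA'
    have hπD : ∀ n, π (D.coeff n) = π (A.coeff n) := fun n ↦ by
      simp [hD, PowerSeries.coeff_C_mul, -PowerSeries.coeff_zero_eq_constantCoeff, ha]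
    have hD0 : D.coeff 0 = 0 := by
      have hc : PowerSeries.constantCoeff e = 1 := by
        rw [he, ← PowerSeries.coeff_zero_eq_constantCoeff_apply, PowerSeries.coeff_map,
          PowerSeries.coeff_zero_eq_constantCoeff_apply, ModularCurve.constantCoeff_eisenstein4, map_one]
      rw [hD, PowerSeries.coeff_zero_eq_constantCoeff_apply, map_sub, map_mul,
        PowerSeries.constantCoeff_C, map_pow, hc, one_pow, mul_one,
        ← PowerSeries.coeff_zero_eq_constantCoeff_apply, sub_self]
    have hinvU : u * u' = 1 := by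
      rw [hu, hu', ← map_mul, ModularCurve.dedekindEtaUnit_mul_inv, map_one]
    have hD₁' : A' * u = D₁ := by rw [hA', mul_assoc, mul_comm u', hinvU, mul_one]
    have hDX : D = PowerSeries.X * u * A' := by
      rw [mul_assoc, mul_comm u A', hD₁']
      ext n
      cases n with
      | zero => simpa using hD0
      | succ n => simp [hD₁, PowerSeries.coeff_succ_X_mul]
    set d : ℍ → ℂ := g + (-ι (A.coeff 0)) • (⇑ModularForm.E₄) ^ b with hd
    have hdS : IsQSer 1 d (PowerSeries.map ι D) := by
      have := hA.add ((isQSer_eisensteinFour.npow one_pos b).smul (-ι (A.coeff 0)))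
      convert this using 1
      rw [hD, map_sub, map_mul, PowerSeries.map_C, map_pow, he, map_castRingHom_map,
        PowerSeries.smul_eq_C_mul, map_neg]
      ring
    have hdinv : ∀ γ : SL(2, ℤ), d ∣[(4 * b : ℤ)] γ = d := fun γ ↦ by
      rw [hd, SlashAction.add_slash, hinv, ModularForm.SL_smul_slash, eisensteinFour_pow_slash]
    have hdzero : IsZeroAtImInfty d := by
      have := hdS.tendsto one_pos
      rwa [PowerSeries.coeff_map, hD0, map_zero] at this
    let cf : CuspForm 𝒮ℒ (4 * b : ℤ) :=
      { toFun := d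
        slash_action_eq' := by rintro _ ⟨γ, rfl⟩; exact hdinv γ
        holo' := hdS.mdiff one_pos
        zero_at_cusps' := fun {c} hc ↦ by
          rw [Subgroup.IsArithmetic.isCusp_iff_isCusp_SL2Z] at hc
          rw [OnePoint.isZeroAt_iff_forall_SL2Z hc]
          exact fun γ _ ↦ by rw [hdinv γ]; exact hdzero }
    set f : ModularForm 𝒮ℒ ((4 * b : ℤ) - 12) := CuspForm.discriminantEquiv cf with hf
    have hfS : IsQSer 1 f (PowerSeries.map ι A') := by
      have h1 := isQSer_of_mem_qFunctions (Fermat.Agent.MF.coe_levelOne_mem_qFunctions f)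
      have h2 : IsQSer 1 d ((PowerSeries.X * ModularCurve.dedekindEtaUnit.map castC) *
          qExpansion 1 ⇑f) :=
        (isQSer_discriminant.mul one_pos h1).congr fun τ ↦ by
          rw [Pi.mul_apply, hf, ModularForm.discriminant_mul_discriminantEquiv_apply]
          rfl
      have h3 := hdS.unique one_pos h2
      rw [hDX, map_mul, map_mul, PowerSeries.map_X, hu, map_castRingHom_map] at h3
      have hne : PowerSeries.X * ModularCurve.dedekindEtaUnit.map castC ≠ 0 := by
        refine mul_ne_zero PowerSeries.X_ne_zero fun h ↦ ?_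
        have := congrArg (PowerSeries.coeff 0) h
        simp [PowerSeries.coeff_zero_eq_constantCoeff,
          ModularCurve.constantCoeff_dedekindEtaUnit] at this
      rwa [mul_left_cancel₀ hne h3]
    suffices h : π (A'.coeff N) = 0 ∧ ∀ n < N, π (A'.coeff n) = 0 by
      have hle : ∀ i ≤ N, π (A'.coeff i) = 0 := fun i hi ↦ by
        rcases hi.lt_or_eq with hi | rfl
        · exact h.2 i hi
        · exact h.1
      have := map_coeff_mul_eq_zero π (T := u) hle
      rw [hD₁', hD₁, PowerSeries.coeff_mk, hπD] at this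
      exact this
    have hlow : ∀ n < N, π (A'.coeff n) = 0 := fun n hn ↦ by
      refine map_coeff_mul_eq_zero π fun i hi ↦ ?_
      rw [hD₁, PowerSeries.coeff_mk, hπD]
      exact h0 _ (by omega)
    refine ⟨?_, hlow⟩
    by_cases hb3 : b < 3
    · have hzero : (⇑f : ℍ → ℂ) = 0 :=
        ModularFormClass.levelOne_neg_weight_eq_zero (k := (4 * b : ℤ) - 12) (by omega) f
      rw [hzero] at hfS
      have := congrArg (PowerSeries.coeff N) (hfS.unique one_pos isQSer_zero)
      rw [PowerSeries.coeff_map, map_zero, ← map_zero ι] at this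
      rw [hι this, map_zero]
    · refine ih (b := b - 3) (by omega) (g := f) (fun γ ↦ ?_) hfS hlow
      rw [show ((4 : ℤ) * ((b - 3 : ℕ) : ℤ)) = 4 * (b : ℤ) - 12 by omega]
      exact SlashInvariantFormClass.slash_action_eq f _ ⟨γ, rfl⟩

end Fermat.Agent.EIS

end
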