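import Fermat.Agent.EIS.Upper.NormSeries
import Fermat.Agent.EIS.Upper.LevelOneMod

/-!
# No Eisenstein congruence modulo `2` when `p ≡ 7 (mod 8)`

The product of all translates of `c' E₃ + f - E_p` (`c' = (p - 1)/2`) has level one and weight
`8 (p + 1)`, while its reduction modulo `2` has order exactly `p + 1`.
-/

set_option autoImplicit false

noncomputable section

open Filter UpperHalfPlane ModularGroup CongruenceSubgroup Topology Function
open scoped Manifold MatrixGroups ModularForm

namespace Fermat.Agent.EIS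

theorem prod_slash_SL {ι : Type*} (s : Finset ι) (k : ℤ) (F : ι → ℍ → ℂ) (γ : SL(2, ℤ)) :
    (∏ i ∈ s, F i) ∣[k * (s.card : ℤ)] γ = ∏ i ∈ s, (F i ∣[k] γ) := by
  rw [ModularForm.SL_slash, ModularForm.prod_slash]
  simp [ModularForm.SL_slash]

variable {p : ℕ} [hp : Fact p.Prime]

theorem not_mod_eight_seven_of_congr_two {f : CuspForm (Gamma0 p) 2} {a : ℕ → ℤ}
    (ha : ∀ n, ModularFormClass.qCoeff f n = (a n : ℂ)) (ha0 : a 0 = 0)
    (hM : ∀ n, n ≠ 0 → (2 : ℤ) ∣ a n - sigmaPrime p n) : p % 8 ≠ 7 := by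
  intro hp7
  haveI : Fact (Nat.Prime 3) := ⟨Nat.prime_three⟩
  haveI := modTwo_nontrivial
  obtain ⟨t, ht⟩ : ∃ t : ℕ, p = 8 * t + 7 := ⟨p / 8, by omega⟩
  set u : ℤ := 4 * t + 3 with hu
  have hpu : ((p : ℂ) - 1) = 2 * (u : ℂ) := by rw [ht, hu]; push_cast; ring
  set N : ℕ := 3 * p with hN
  have hN0 : N ≠ 0 := Nat.mul_ne_zero (by norm_num) hp.out.ne_zero
  -- the two weight two forms
  set FA : ℍ → ℂ := ((3 * (p : ℤ) * u : ℤ) : ℂ) • eisE 3 with hFA
  set FB : ℍ → ℂ := (9 : ℂ) • (⇑f - eisE p) with hFB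
  set HA : PowerSeries ℤ := PowerSeries.C (3 * (p : ℤ) * u) * sigmaSer 3 with hHA
  set HB : PowerSeries ℤ := PowerSeries.C 9 * (PowerSeries.mk a - sigmaSer p) with hHB
  set KA : ℂ := (p : ℂ) * u / 4 with hKA
  set KB : ℂ := -(3 * (u : ℂ)) / 4 with hKB
  have hA : IsWeightTwo 3 FA := (isWeightTwo_eisE 3).smul _
  have hB : IsWeightTwo p FB := ((isWeightTwo_cuspForm f).sub (isWeightTwo_eisE p)).smul _
  have hAs : IsQSer 1 FA (PowerSeries.C KA + castS HA) := by
    convert (isQSer_eisE 3).smul (((3 * (p : ℤ) * u : ℤ) : ℂ)) using 1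
    ext n
    rw [map_add, PowerSeries.coeff_smul, PowerSeries.coeff_map, hHA, PowerSeries.coeff_C_mul,
      PowerSeries.coeff_C, sigmaSer, PowerSeries.coeff_mk, eisESer, PowerSeries.coeff_mk,
      smul_eq_mul, eq_intCast]
    rcases eq_or_ne n 0 with rfl | hn
    · simp [sigmaPrime_zero, hKA]; ring
    · simp [hn]
  have hBs : IsQSer 1 FB (PowerSeries.C KB + castS HB) := by
    convert ((isQSer_cuspForm ha).sub (isQSer_eisE p)).smul (9 : ℂ) using 1
    ext n
    rw [map_add, PowerSeries.coeff_smul, map_sub, PowerSeries.coeff_map, PowerSeries.coeff_map,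
      hHB, PowerSeries.coeff_C_mul, map_sub, PowerSeries.coeff_C, sigmaSer, PowerSeries.coeff_mk,
      PowerSeries.coeff_mk, eisESer, PowerSeries.coeff_mk, smul_eq_mul, eq_intCast]
    rcases eq_or_ne n 0 with rfl | hn
    · simp [sigmaPrime_zero, hKB, hpu, ha0]; ring
    · simp [hn]
  have hHA0 : HA.coeff 0 = 0 := by
    rw [hHA, PowerSeries.coeff_C_mul, sigmaSer, PowerSeries.coeff_mk, sigmaPrime_zero, mul_zero]
  have hHB2 : ∀ n, 2 ∣ HB.coeff n := by
    intro n
    rw [hHB, PowerSeries.coeff_C_mul, map_sub, sigmaSer, PowerSeries.coeff_mk, PowerSeries.coeff_mk]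
    rcases eq_or_ne n 0 with rfl | hn
    · simp [ha0, sigmaPrime_zero]
    · exact (hM n hn).mul_left 9
  -- the factors
  set Fam : Option (ZMod 3) × Option (ZMod p) → ℍ → ℂ := fun x ↦
    ((3 : ℕ) : ℂ) • gammaOrbit 3 2 FA x.1 + (p : ℂ) • gammaOrbit p 2 FB x.2 with hFam
  set kk : Option (ZMod 3) × Option (ZMod p) → ℤ := fun x ↦ match x with
    | (none, none) => 0
    | (none, some _) => 3 * u * (2 * t + 2)
    | (some _, none) => -(p : ℤ) * u
    | (some _, some _) => u * (-2 * t - 1) with hkk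
  set RA : Option (ZMod 3) → PowerSeries AlgInts := orbitRest 3 p hp.out.ne_zero HA with hRA
  set RB : Option (ZMod p) → PowerSeries AlgInts := orbitRest p 3 (by norm_num) HB with hRB
  set SR : Option (ZMod 3) × Option (ZMod p) → PowerSeries AlgInts := fun x ↦
    PowerSeries.C (kk x : AlgInts) + RA x.1 + RB x.2 with hSR
  have hser : ∀ x, IsQSer (N : ℝ) (Fam x) (PowerSeries.map algIntsVal (SR x)) := by
    intro x
    have h1 := isQSer_orbit 3 hA hAs hp.out.ne_zero x.1
    have h2 := isQSer_orbit p hB hBs (show (3 : ℕ) ≠ 0 by norm_num) x.2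
    rw [mul_comm p 3] at h2
    convert h1.add h2 using 1
    have hconst : ((kk x : ℤ) : ℂ) = orbitConst 3 KA x.1 + orbitConst p KB x.2 := by
      obtain ⟨i, j⟩ := x
      have hpC : (p : ℂ) = 8 * t + 7 := by rw [ht]; push_cast; ring
      rcases i with _ | i <;> rcases j with _ | j <;>
        simp only [hkk, orbitConst, hKA, hKB, hu] <;> push_cast <;> rw [hpC] <;> ring
    rw [← hRA, ← hRB, hSR]
    dsimp only
    rw [map_add, map_add, PowerSeries.map_C,
      show algIntsVal (kk x : AlgInts) = ((kk x : ℤ) : ℂ) from map_intCast _ _, hconst, map_add]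
    ring
  -- invariance
  have hcard : (Finset.univ : Finset (Option (ZMod 3) × Option (ZMod p))).card = 4 * (p + 1) := by
    simp [ZMod.card]
  set g : ℍ → ℂ := ∏ x, Fam x with hg
  have hinv : ∀ γ : SL(2, ℤ), g ∣[(4 * ((2 * (p + 1) : ℕ) : ℤ))] γ = g := by
    have hw : (4 * ((2 * (p + 1) : ℕ) : ℤ)) =
        2 * ((Finset.univ : Finset (Option (ZMod 3) × Option (ZMod p))).card : ℤ) := by
      rw [hcard]; push_cast; ring
    intro γ
    rw [hw]
    refine SlashInvariantForm.slash_action_generators_SL2Z ?_ ?_ γ <;> rw [hg, prod_slash_SL]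
    · refine Eq.trans (Finset.prod_congr rfl fun x _ ↦ ?_)
        (Equiv.prod_comp ((cosetPermS 3).prodCongr (cosetPermS p)) Fam)
      simp only [hFam, SlashAction.add_slash, ModularForm.SL_smul_slash,
        gammaOrbit_slash_S hA.inv, gammaOrbit_slash_S hB.inv, Equiv.prodCongr_apply, Prod.map_fst,
        Prod.map_snd]
    · refine Eq.trans (Finset.prod_congr rfl fun x _ ↦ ?_)
        (Equiv.prod_comp ((cosetPermT 3).prodCongr (cosetPermT p)) Fam)
      simp only [hFam, SlashAction.add_slash, ModularForm.SL_smul_slash,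
        gammaOrbit_slash_T hA.inv, gammaOrbit_slash_T hB.inv, Equiv.prodCongr_apply, Prod.map_fst,
        Prod.map_snd]
  set P : PowerSeries AlgInts := ∏ x, SR x with hP
  have hNpos : (0 : ℝ) < (N : ℝ) := by exact_mod_cast Nat.pos_of_ne_zero hN0
  have hgs : IsQSer (N : ℝ) g (PowerSeries.map algIntsVal P) := by
    rw [hP, map_prod]
    exact IsQSer.prod hNpos _ fun x _ ↦ hser x
  have hper : Periodic (g ∘ ofComplex) (1 : ℝ) := by
    have := SlashInvariantFormClass.periodic_comp_ofComplex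
      (levelOneForm hinv (hgs.mdiff hNpos) (hgs.isBoundedAtImInfty hNpos)) one_mem_strictPeriods_SL
    simpa [levelOneForm] using! this
  set A : PowerSeries AlgInts := PowerSeries.mk fun n ↦ P.coeff (N * n) with hAdef
  have hgA : IsQSer 1 g (PowerSeries.map algIntsVal A) := by
    have h : IsQSer ((N : ℝ) * 1) g (PowerSeries.map algIntsVal P) := by rwa [mul_one]
    convert IsQSer.descend one_pos (Nat.pos_of_ne_zero hN0) h hper using 1
    ext n
    simp [hAdef]
  -- the reduction modulo `2`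
  set W : PowerSeries ModTwo := PowerSeries.map modTwo (intSer (sigmaSer 3)) with hW
  have hodd : ∀ (c : ℤ), ¬ 2 ∣ c → PowerSeries.map modTwo (intSer (PowerSeries.C c)) = 1 := by
    intro c hc
    rw [PowerSeries.map_C, PowerSeries.map_C, eq_intCast, modTwo_intCast_of_odd hc, map_one]
  have hpodd : ¬ (2 : ℤ) ∣ 3 * (p : ℤ) * u := by
    rw [ht, hu]
    push_cast
    rintro ⟨w, hw⟩
    have h1 : (2 : ℤ) ∣ 1 :=
      ⟨w - (48 * (t : ℤ) ^ 2 + 78 * t + 31), by linear_combination hw⟩
    norm_num at h1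
  have hSRzero : ∀ j, PowerSeries.map modTwo (SR (none, j)) = PowerSeries.expand N hN0 W := by
    intro j
    have hk : (2 : ℤ) ∣ kk (none, j) := by
      rcases j with _ | j
      · exact dvd_zero _
      · exact ⟨3 * u * (t + 1), by simp only [hkk]; ring⟩
    have hA' : PowerSeries.map modTwo (intSer (PowerSeries.C ((3 : ℕ) : ℤ) * HA)) = W := by
      rw [map_mul, map_mul, hodd _ (by norm_num), one_mul, hHA, map_mul, map_mul, hodd _ hpodd,
        one_mul]
    rw [hSR]
    simp only [map_add, hRB, map_orbitRest_eq_zero p hHB2, add_zero]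
    simp only [PowerSeries.map_C, modTwo_intCast_of_even hk, map_zero, zero_add, hRA, orbitRest,
      PowerSeries.map_expand, hA', hN]
  have hSRone : ∀ i j, (PowerSeries.map modTwo (SR (some i, j))).coeff 0 = 1 := by
    intro i j
    have hk : ¬ (2 : ℤ) ∣ kk (some i, j) := by
      rintro ⟨w, hw⟩
      have h1 : (2 : ℤ) ∣ 1 := by
        rcases j with _ | j <;> simp only [hkk, hu, ht] at hw <;> push_cast at hw
        · exact ⟨-w - (16 * (t : ℤ) ^ 2 + 26 * t + 10), by linear_combination -hw⟩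
        · exact ⟨-w - (4 * (t : ℤ) ^ 2 + 5 * t + 1), by linear_combination -hw⟩
      norm_num at h1
    rw [hSR]
    simp only [map_add, hRB, map_orbitRest_eq_zero p hHB2, PowerSeries.coeff_map, hRA,
      constantCoeff_orbitRest 3 hHA0, map_zero, add_zero]
    rw [PowerSeries.coeff_C, if_pos rfl, modTwo_intCast_of_odd hk]
  obtain ⟨W1, hW1⟩ : PowerSeries.X ∣ W := by
    rw [PowerSeries.X_dvd_iff, ← PowerSeries.coeff_zero_eq_constantCoeff_apply, hW]
    simp [sigmaSer, sigmaPrime_zero]
  have hW1c : PowerSeries.constantCoeff W1 = 1 := by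
    have := congrArg (PowerSeries.coeff 1) hW1
    rw [PowerSeries.coeff_succ_X_mul, PowerSeries.coeff_zero_eq_constantCoeff_apply] at this
    rw [← this, hW]
    simp [sigmaSer, sigmaPrime]
  set U : PowerSeries ModTwo :=
    (PowerSeries.expand N hN0 W1) ^ (p + 1) *
      ∏ i : ZMod 3, ∏ j : Option (ZMod p), PowerSeries.map modTwo (SR (some i, j)) with hU
  have hPU : PowerSeries.map modTwo P = PowerSeries.X ^ (N * (p + 1)) * U := by
    rw [hP, map_prod, Fintype.prod_prod_type, Fintype.prod_option, Finset.prod_congr rfl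
      (fun j _ ↦ hSRzero j), Finset.prod_const, Finset.card_univ, Fintype.card_option, ZMod.card,
      hW1, map_mul, PowerSeries.expand_X, mul_pow, ← pow_mul, hU, mul_assoc]
  have hU0 : PowerSeries.constantCoeff U = 1 := by
    simp only [hU, map_mul, map_pow, map_prod, PowerSeries.constantCoeff_expand, hW1c, one_pow,
      one_mul]
    refine Finset.prod_eq_one fun i _ ↦ Finset.prod_eq_one fun j _ ↦ ?_
    rw [← PowerSeries.coeff_zero_eq_constantCoeff_apply]
    exact hSRone i j
  have hcoeff : ∀ n, modTwo (A.coeff n) = (PowerSeries.X ^ (N * (p + 1)) * U).coeff (N * n) := by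
    intro n
    rw [← hPU, hAdef, PowerSeries.coeff_mk, PowerSeries.coeff_map]
  have h := levelOne_coeff_eq_zero_of_lt algIntsVal Subtype.val_injective modTwo
    (N := p + 1) (b := 2 * (p + 1)) (by omega) hinv hgA (fun n hn ↦ by
      rw [hcoeff, PowerSeries.coeff_X_pow_mul', if_neg]
      exact not_le.mpr (Nat.mul_lt_mul_of_pos_left hn (Nat.pos_of_ne_zero hN0)))
  rw [hcoeff, PowerSeries.coeff_X_pow_mul', if_pos le_rfl, Nat.sub_self,
    PowerSeries.coeff_zero_eq_constantCoeff_apply, hU0] at h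
  exact one_ne_zero h

end Fermat.Agent.EIS

end
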