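import Fermat.Agent.EIS.Upper.Orbit
import Fermat.Agent.EIS.E2Form
import Fermat.Agent.EIS.SigmaPrime
import Fermat.Prelude.Def_FLTPrelim_Modularity
import Fermat.Prelude.Thm_CongruenceSubgroup_one_mem_strictPeriods_Gamma0
import Mathlib.NumberTheory.ModularForms.LevelOne.DimensionFormula
import Mathlib.NumberTheory.ModularForms.EisensteinSeries.QExpansion

/-!
# Trace identities in weight four and their congruence consequences
-/

set_option autoImplicit false

noncomputable section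

open Filter UpperHalfPlane ModularGroup CongruenceSubgroup Topology Function EisensteinSeries ModularForm
open scoped Manifold MatrixGroups ModularForm ArithmeticFunction.sigma

namespace Fermat.Agent.EIS

/-- Integral series viewed over `ℂ`. -/
abbrev castS : PowerSeries ℤ →+* PowerSeries ℂ := PowerSeries.map (Int.castRingHom ℂ)

variable {p : ℕ} [hp : Fact p.Prime]

theorem isWeightTwo_eisE (p : ℕ) [Fact p.Prime] : IsWeightTwo p (eisE p) where
  inv := eisE_slash p
  hol := eisE_mdiff p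
  bdd := (isQSer_eisE p).isBoundedAtImInfty one_pos
  bddS := (tendsto_eisE_slash_S p).isBigO_one ℝ

theorem isWeightTwo_cuspForm (f : CuspForm (Gamma0 p) 2) : IsWeightTwo p ⇑f where
  inv γ hγ := SlashInvariantFormClass.slash_action_eq f _ ⟨γ, hγ, rfl⟩
  hol := CuspFormClass.holo f
  bdd := by
    have h := ModularFormClass.bdd_at_infty_slash (f := f) (1 : SL(2, ℤ))
    rwa [SlashAction.slash_one] at h
  bddS := ModularFormClass.bdd_at_infty_slash (f := f) S

theorem isQSer_cuspForm {f : CuspForm (Gamma0 p) 2} {a : ℕ → ℤ}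
    (ha : ∀ n, ModularFormClass.qCoeff f n = (a n : ℂ)) :
    IsQSer 1 ⇑f (castS (PowerSeries.mk a)) := by
  convert (isWeightTwo_cuspForm f).isQSer
  ext n
  simpa [castS, ModularFormClass.qCoeff] using (ha n).symm

/-- The series of `σ'`. -/
def sigmaSer (p : ℕ) [Fact p.Prime] : PowerSeries ℤ := PowerSeries.mk (sigmaPrime p)

omit hp in
theorem sigmaPrime_zero : sigmaPrime p 0 = 0 := by simp [sigmaPrime]

/-- `24` times the series of the Eisenstein series. -/
def eisInt (p : ℕ) [Fact p.Prime] : PowerSeries ℤ :=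
  PowerSeries.C ((p : ℤ) - 1) + PowerSeries.C 24 * sigmaSer p

theorem coeff_eisInt (p : ℕ) [Fact p.Prime] (n : ℕ) :
    (eisInt p).coeff n = if n = 0 then (p : ℤ) - 1 else 24 * sigmaPrime p n := by
  rw [eisInt, map_add, PowerSeries.coeff_C_mul, sigmaSer, PowerSeries.coeff_mk, PowerSeries.coeff_C]
  rcases eq_or_ne n 0 with rfl | hn
  · simp [sigmaPrime_zero]
  · simp [hn]

theorem isQSer_eisInt (p : ℕ) [Fact p.Prime] :
    IsQSer 1 ((24 : ℂ) • eisE p) (castS (eisInt p)) := by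
  convert (isQSer_eisE p).smul 24
  ext n
  rw [PowerSeries.coeff_map, coeff_eisInt]
  rcases eq_or_ne n 0 with rfl | hn
  · simp [eisESer, -PowerSeries.coeff_zero_eq_constantCoeff]
    ring
  · simp [eisESer, hn]

theorem serU_sigmaSer : serU p (sigmaSer p) = sigmaSer p := by
  ext n
  rcases eq_or_ne n 0 with rfl | hn
  · simp [sigmaSer]
  · rw [coeff_serU, sigmaSer, PowerSeries.coeff_mk, PowerSeries.coeff_mk, sigmaPrime_mul_self p hn]

theorem serU_C {R : Type*} [Semiring R] (c : R) : serU p (PowerSeries.C c) = PowerSeries.C c := by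
  ext n; simp [PowerSeries.coeff_C, hp.out.ne_zero]

omit hp in
theorem serU_add {R : Type*} [Semiring R] (A B : PowerSeries R) :
    serU p (A + B) = serU p A + serU p B := by
  ext n; simp

omit hp in
theorem serU_C_mul {R : Type*} [Semiring R] (c : R) (A : PowerSeries R) :
    serU p (PowerSeries.C c * A) = PowerSeries.C c * serU p A := by
  ext n; simp

theorem serU_eisInt : serU p (eisInt p) = eisInt p := by
  rw [eisInt, serU_add, serU_C_mul, serU_sigmaSer, serU_C]

theorem sum_zmod_val {M : Type*} [AddCommMonoid M] (G : ℕ → M) :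
    ∑ j : ZMod p, G j.val = ∑ j ∈ Finset.range p, G j :=
  Finset.sum_bij (fun j _ ↦ j.val) (fun j _ ↦ Finset.mem_range.mpr j.val_lt)
    (fun _ _ _ _ hab ↦ ZMod.val_injective p hab)
    (fun b hb ↦ ⟨(b : ZMod p), Finset.mem_univ _, ZMod.val_cast_of_lt (Finset.mem_range.mp hb)⟩)
    fun _ _ ↦ rfl

/-- The integral series of `E₄`. -/
def e4Coeff (n : ℕ) : ℤ := if n = 0 then 1 else 240 * (σ 3 n : ℤ)

theorem levelOne_weight_four_coeff {L : ℍ → ℂ} {SL : PowerSeries ℂ}
    (hinv : ∀ γ : SL(2, ℤ), L ∣[(4 : ℤ)] γ = L) (hL : IsQSer 1 L SL) (n : ℕ) :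
    SL.coeff n = SL.coeff 0 * (e4Coeff n : ℂ) := by
  let g := levelOneForm hinv (hL.mdiff one_pos) (hL.isBoundedAtImInfty one_pos)
  have hE : (E₄ : ModularForm 𝒮ℒ 4) ≠ 0 := E_ne_zero _ ⟨2, rfl⟩
  obtain ⟨c, hc⟩ := (finrank_eq_one_iff_of_nonzero' (E₄ : ModularForm 𝒮ℒ 4) hE).mp
    (Module.rank_eq_one_iff_finrank_eq_one.mp ModularForm.levelOne_weight_four_rank_one) g
  have hEq : IsQSer 1 ⇑E₄ (qExpansion 1 ⇑E₄) :=
    isQSer_qExpansion one_pos
      (by simpa using SlashInvariantFormClass.periodic_comp_ofComplex E₄ one_mem_strictPeriods_SL)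
      (ModularFormClass.holo _) (ModularFormClass.bdd_at_infty _)
  have hEc : ∀ m, (qExpansion 1 ⇑E₄).coeff m = (e4Coeff m : ℂ) := by
    intro m
    rw [E_qExpansion_coeff _ ⟨2, rfl⟩, e4Coeff]
    rcases eq_or_ne m 0 with rfl | hm
    · simp
    · simp [hm, show bernoulli 4 = -1 / 30 by decide +kernel]
      norm_num
  have hS : SL = c • qExpansion 1 ⇑E₄ := by
    refine hL.unique one_pos ((hEq.smul c).congr fun τ ↦ ?_)
    exact congrArg (fun φ : ModularForm 𝒮ℒ 4 ↦ φ τ) hc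
  rw [hS]
  simp [hEc, e4Coeff, -PowerSeries.coeff_zero_eq_constantCoeff]

/-- The trace to level one of a product of two forms of weight two. -/
theorem trace_mul {F G : ℍ → ℂ} {A B : PowerSeries ℤ} (hF : IsWeightTwo p F)
    (hG : IsWeightTwo p G) (hA : IsQSer 1 F (castS A)) (hB : IsQSer 1 G (castS B)) (n : ℕ) :
    (p : ℤ) * (A * B).coeff n + (serU p A * serU p B).coeff (n * p) =
      ((p : ℤ) + 1) * A.coeff 0 * B.coeff 0 * e4Coeff n := by
  have hp0 : p ≠ 0 := hp.out.ne_zero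
  have hpC : (p : ℂ) ≠ 0 := Nat.cast_ne_zero.mpr hp0
  have hmul : ∀ γ : SL(2, ℤ), (F * G) ∣[(4 : ℤ)] γ = (F ∣[(2 : ℤ)] γ) * (G ∣[(2 : ℤ)] γ) :=
    fun γ ↦ ModularForm.mul_slash_SL2 2 2 γ F G
  have hinv : ∀ γ ∈ Gamma0 p, (F * G) ∣[(4 : ℤ)] γ = F * G := fun γ hγ ↦ by
    rw [hmul, hF.inv γ hγ, hG.inv γ hγ]
  set P : ℍ → ℂ := ModularForm.heckeU 2 p F * ModularForm.heckeU 2 p G with hP
  have hPs : IsQSer 1 P (serU p (castS A) * serU p (castS B)) :=
    (hA.heckeU 2 hp0).mul one_pos (hB.heckeU 2 hp0)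
  have hL : IsQSer 1 (∑ i, gammaOrbit p 4 (F * G) i)
      (castS A * castS B + (p : ℂ)⁻¹ • serU p (serU p (castS A) * serU p (castS B))) := by
    refine ((hA.mul one_pos hB).add ((hPs.heckeU 4 hp0).smul (p : ℂ)⁻¹)).congr fun τ ↦ ?_
    rw [Finset.sum_apply, Fintype.sum_option, Pi.add_apply, Pi.smul_apply, smul_eq_mul,
      ModularForm.heckeU_apply 4 hp0, ← sum_zmod_val, Finset.mul_sum, Finset.mul_sum]
    refine congrArg₂ (· + ·) rfl (Finset.sum_congr rfl fun j _ ↦ ?_)
    rw [gammaOrbit_some_apply, hmul, Pi.mul_apply]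
    have he : ((j.val : ℝ) +ᵥ τ) = mulNat p (ModularForm.heckeMatrix p j.val • τ) := by
      apply UpperHalfPlane.ext
      rw [coe_mulNat, ModularForm.coe_heckeMatrix_smul hp0, mul_div_cancel₀ _ hpC]
      simp [add_comm, -ZMod.natCast_val]
    rw [he, hF.slash_S_mulNat, hG.slash_S_mulNat, hP, Pi.mul_apply]
    ring
  have h := levelOne_weight_four_coeff (sum_gammaOrbit_slash hinv) hL n
  simp only [castS, ← map_serU, ← map_mul, map_add, PowerSeries.coeff_smul, PowerSeries.coeff_map,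
    eq_intCast, smul_eq_mul, coeff_serU, zero_mul] at h
  have e0 : (serU p A * serU p B).coeff 0 = A.coeff 0 * B.coeff 0 := by
    simp [PowerSeries.coeff_mul]
  have e1 : (A * B).coeff 0 = A.coeff 0 * B.coeff 0 := by
    simp [PowerSeries.coeff_mul]
  rw [e0, e1] at h
  field_simp at h
  push_cast at h
  rw [← Int.cast_inj (α := ℂ)]
  push_cast
  linear_combination h

/-- The linear congruence. -/
theorem dvd_of_congr {f : CuspForm (Gamma0 p) 2} {a : ℕ → ℤ} {M : ℕ}
    (ha : ∀ n, ModularFormClass.qCoeff f n = (a n : ℂ)) (ha0 : a 0 = 0)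
    (hM : ∀ n, n ≠ 0 → (M : ℤ) ∣ a n - sigmaPrime p n) :
    ((M * Nat.gcd (p - 1) 24 : ℕ) : ℤ) ∣ ((p : ℤ) ^ 2 - 1) * (10 * p - 11) := by
  set g : ℕ := Nat.gcd (p - 1) 24 with hg
  have hM' : ∀ n, ∃ z : ℤ, sigmaPrime p n - a n = M * z := by
    intro n
    rcases eq_or_ne n 0 with rfl | hn
    · exact ⟨0, by simp [sigmaPrime_zero, ha0]⟩
    · exact (dvd_sub_comm).mp (hM n hn)
  choose H hH using hM'
  have hgp : (g : ℤ) ∣ (p : ℤ) - 1 := by
    rw [← Nat.cast_one, ← Nat.cast_sub hp.out.one_le]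
    exact Int.natCast_dvd_natCast.mpr (Nat.gcd_dvd_left _ _)
  have hg24 : (g : ℤ) ∣ 24 := Int.natCast_dvd_natCast.mpr (Nat.gcd_dvd_right _ _)
  obtain ⟨u, hu⟩ := hgp
  obtain ⟨v, hv⟩ := hg24
  set c : ℤ := (p : ℤ) - 1 with hc
  set K : PowerSeries ℤ := PowerSeries.C u + PowerSeries.C v * sigmaSer p with hK
  have hE : eisInt p = PowerSeries.C (g : ℤ) * K := by
    rw [eisInt, ← hc, hu, hv, hK]
    simp only [map_mul]
    ring
  set Gi : PowerSeries ℤ := PowerSeries.C c + PowerSeries.C (24 * M : ℤ) * PowerSeries.mk H with hGi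
  have hG : IsWeightTwo p ((24 : ℂ) • (eisE p - ⇑f)) :=
    ((isWeightTwo_eisE p).sub (isWeightTwo_cuspForm f)).smul 24
  have hGs : IsQSer 1 ((24 : ℂ) • (eisE p - ⇑f)) (castS Gi) := by
    rw [smul_sub]
    convert (isQSer_eisInt p).sub ((isQSer_cuspForm ha).smul (24 : ℂ))
    ext n
    rw [map_sub, PowerSeries.coeff_smul, PowerSeries.coeff_map, PowerSeries.coeff_map,
      PowerSeries.coeff_map, hGi, coeff_eisInt, map_add, PowerSeries.coeff_C_mul,
      PowerSeries.coeff_mk, PowerSeries.coeff_mk, PowerSeries.coeff_C, smul_eq_mul]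
    have := congrArg (Int.cast : ℤ → ℂ) (hH n)
    push_cast at this
    rcases eq_or_ne n 0 with rfl | hn
    · simp only [if_true, eq_intCast, ← hc, sigmaPrime_zero, Int.cast_zero, ha0] at this ⊢
      push_cast
      linear_combination -24 * this
    · simp only [hn, if_false, eq_intCast]
      push_cast
      linear_combination -24 * this
  have h := trace_mul hG ((isWeightTwo_eisE p).smul 24) hGs (isQSer_eisInt p) 1
  rw [serU_eisInt, hGi, serU_add, serU_C, serU_C_mul, add_mul, add_mul, map_add, map_add,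
    mul_assoc (PowerSeries.C (24 * M : ℤ)), mul_assoc (PowerSeries.C (24 * M : ℤ))] at h
  simp only [PowerSeries.coeff_C_mul] at h
  have hz : ∀ (Z : PowerSeries ℤ) (n : ℕ),
      (Z * eisInt p).coeff n = g * (Z * K).coeff n := by
    intro Z n
    rw [hE, mul_left_comm, PowerSeries.coeff_C_mul]
  have e1 : (eisInt p).coeff 1 = 24 := by
    simp [coeff_eisInt, sigmaPrime, hp.out.ne_one]
  have e2 : (eisInt p).coeff (1 * p) = 24 := by
    rw [← coeff_serU, serU_eisInt, e1]
  have e3 : (eisInt p).coeff 0 = c := by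
    rw [coeff_eisInt, if_pos rfl, hc]
  have e4 : (PowerSeries.mk H).coeff 0 * M = 0 := by
    rw [PowerSeries.coeff_mk, mul_comm, ← hH 0]
    simp [sigmaPrime_zero, ha0]
  rw [hz, hz, e1, e2, e3] at h
  refine ⟨-((p : ℤ) * (PowerSeries.mk H * K).coeff 1 +
    (serU p (PowerSeries.mk H) * K).coeff (1 * p)) * (-1), ?_⟩
  have hfac : ((p : ℤ) ^ 2 - 1) * (10 * p - 11) = c * ((p : ℤ) + 1) * (10 * c - 1) := by
    rw [hc]; ring
  rw [hfac]
  push_cast
  simp only [e4Coeff, one_ne_zero, if_false, ArithmeticFunction.sigma_one, Nat.cast_one,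
    map_add, PowerSeries.coeff_C_mul, PowerSeries.coeff_C, if_true] at h
  refine mul_left_cancel₀ (show (24 : ℤ) ≠ 0 by norm_num) ?_
  linear_combination -h - 240 * ((p : ℤ) + 1) * c * (24 * e4)

/-- The quadratic congruence. -/
theorem not_mod_eight_of_congr_two {f : CuspForm (Gamma0 p) 2} {a : ℕ → ℤ}
    (ha : ∀ n, ModularFormClass.qCoeff f n = (a n : ℂ)) (ha0 : a 0 = 0)
    (hM : ∀ n, n ≠ 0 → (2 : ℤ) ∣ a n - sigmaPrime p n) : p % 8 ≠ 3 ∧ p % 8 ≠ 5 := by
  rcases eq_or_ne p 2 with rfl | hp2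
  · norm_num
  have hM' : ∀ n, ∃ z : ℤ, a n - sigmaPrime p n = 2 * z := by
    intro n
    rcases eq_or_ne n 0 with rfl | hn
    · exact ⟨0, by simp [sigmaPrime_zero, ha0]⟩
    · exact hM n hn
  choose H hH using hM'
  have hA : PowerSeries.mk a = sigmaSer p + PowerSeries.C 2 * PowerSeries.mk H := by
    ext n
    rw [map_add, PowerSeries.coeff_C_mul, sigmaSer]
    simp only [PowerSeries.coeff_mk]
    linarith [hH n]
  have hf := trace_mul (isWeightTwo_cuspForm f) (isWeightTwo_cuspForm f) (isQSer_cuspForm ha)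
    (isQSer_cuspForm ha) 2
  have hE := trace_mul ((isWeightTwo_eisE p).smul 24) ((isWeightTwo_eisE p).smul 24)
    (isQSer_eisInt p) (isQSer_eisInt p) 2
  simp only [PowerSeries.coeff_mk, ha0, mul_zero, zero_mul] at hf
  set X := sigmaSer p with hX
  set H1 := PowerSeries.mk H
  set H2 := serU p H1
  rw [hA, serU_add, serU_C_mul, serU_sigmaSer,
    show (X + PowerSeries.C 2 * H1) * (X + PowerSeries.C 2 * H1) =
      X * X + PowerSeries.C 4 * (X * H1 + H1 * H1) by
        rw [show (4 : ℤ) = 2 + 2 by norm_num, show (2 : ℤ) = 1 + 1 by norm_num]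
        simp only [map_add, map_one]; ring,
    show (X + PowerSeries.C 2 * H2) * (X + PowerSeries.C 2 * H2) =
      X * X + PowerSeries.C 4 * (X * H2 + H2 * H2) by
        rw [show (4 : ℤ) = 2 + 2 by norm_num, show (2 : ℤ) = 1 + 1 by norm_num]
        simp only [map_add, map_one]; ring] at hf
  rw [serU_eisInt, eisInt, ← hX,
    show (PowerSeries.C ((p : ℤ) - 1) + PowerSeries.C 24 * X) *
        (PowerSeries.C ((p : ℤ) - 1) + PowerSeries.C 24 * X) =
      PowerSeries.C (((p : ℤ) - 1) * ((p : ℤ) - 1)) +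
        PowerSeries.C (48 * ((p : ℤ) - 1)) * X + PowerSeries.C 576 * (X * X) by
      rw [show (48 : ℤ) = 24 + 24 by norm_num, show (576 : ℤ) = 24 * 24 by norm_num]
      simp only [map_mul, add_mul, map_add]
      ring] at hE
  simp only [map_add, PowerSeries.coeff_C_mul, PowerSeries.coeff_C] at hE hf
  have x2 : X.coeff 2 = 3 := by
    have : ¬ p ∣ 2 := fun h ↦ hp2 ((Nat.prime_dvd_prime_iff_eq hp.out Nat.prime_two).mp h)
    simp [hX, sigmaSer, sigmaPrime, this, show σ 1 2 = 3 by decide]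
  have x2p : X.coeff (2 * p) = 3 := by
    rw [← coeff_serU, serU_sigmaSer, x2]
  have s3 : σ 3 2 = 9 := by decide
  have x0 : X.coeff 0 = 0 := by simp [hX, sigmaSer, sigmaPrime_zero]
  rw [x2, x2p, x0] at hE
  simp only [e4Coeff, hp.out.ne_zero, mul_eq_zero, OfNat.ofNat_ne_zero, or_self, if_false, s3,
    if_true, zero_add, mul_zero, add_zero] at hE
  have h16 : (16 : ℤ) ∣ ((p : ℤ) ^ 2 - 1) * (15 * p - 16) := by
    refine ⟨-((p : ℤ) * (X * H1 + H1 * H1).coeff 2 + (X * H2 + H2 * H2).coeff (2 * p)), ?_⟩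
    simp only [map_add] at hf ⊢
    refine mul_left_cancel₀ (show (144 : ℤ) ≠ 0 by norm_num) ?_
    push_cast at hE
    linear_combination -hE + 576 * hf
  have key : ∀ x : ZMod 16, (x.val % 8 = 3 ∨ x.val % 8 = 5) → (x ^ 2 - 1) * (15 * x - 16) ≠ 0 := by
    decide
  have hval : ((p : ℕ) : ZMod 16).val % 8 = p % 8 := by
    rw [ZMod.val_natCast]; omega
  have hz : ((p : ZMod 16) ^ 2 - 1) * (15 * (p : ZMod 16) - 16) = 0 := by
    have := (ZMod.intCast_zmod_eq_zero_iff_dvd _ 16).mpr h16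
    push_cast at this
    exact this
  constructor <;> intro h <;> exact key _ (by omega) hz

end Fermat.Agent.EIS

end
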