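import Fermat.Agent.EIS.Upper.Identities
import Mathlib.RingTheory.IntegralClosure.IntegrallyClosed
import Mathlib.RingTheory.IntegralClosure.Algebra.Basic
import Mathlib.RingTheory.Polynomial.RationalRoot
import Mathlib.RingTheory.Ideal.Quotient.Operations

/-!
# Series of the translates of a weight two form, over the algebraic integers
-/

set_option autoImplicit false

noncomputable section

open Filter UpperHalfPlane ModularGroup CongruenceSubgroup Topology Function
open scoped Manifold MatrixGroups ModularForm Real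

namespace Fermat.Agent.EIS

local notation "𝕢" => Function.Periodic.qParam

/-- The ring of algebraic integers in `ℂ`. -/
abbrev AlgInts : Type := ↥(integralClosure ℤ ℂ)

/-- The inclusion of the algebraic integers in `ℂ`. -/
abbrev algIntsVal : AlgInts →+* ℂ := (integralClosure ℤ ℂ).val.toRingHom

/-- The algebraic integers modulo `2`. -/
abbrev ModTwo : Type := AlgInts ⧸ Ideal.span ({2} : Set AlgInts)

/-- Reduction modulo `2`. -/
abbrev modTwo : AlgInts →+* ModTwo := Ideal.Quotient.mk _

theorem span_two_ne_top : Ideal.span ({2} : Set AlgInts) ≠ ⊤ := by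
  rw [Ne, Ideal.span_singleton_eq_top]
  intro h
  obtain ⟨r, hr⟩ := isUnit_iff_exists_inv.mp h
  have hr' : (2 : ℂ) * (r : ℂ) = 1 := by
    have := congrArg algIntsVal hr
    rw [map_mul, map_one, map_ofNat] at this
    exact this
  have hhalf : algebraMap ℚ ℂ (1 / 2) = (r : ℂ) := by
    rw [map_div₀, map_one, map_ofNat, div_eq_iff (two_ne_zero)]
    linear_combination -hr'
  have hint : IsIntegral ℤ ((1 : ℚ) / 2) :=
    (isIntegral_algebraMap_iff (FaithfulSMul.algebraMap_injective ℚ ℂ)).mp (hhalf ▸ r.2)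
  obtain ⟨k, hk⟩ := IsIntegrallyClosed.isIntegral_iff.mp hint
  rw [eq_intCast, eq_div_iff (two_ne_zero)] at hk
  have hk' : k * 2 = 1 := by exact_mod_cast hk
  omega

theorem modTwo_nontrivial : Nontrivial ModTwo :=
  Ideal.Quotient.nontrivial_iff.mpr span_two_ne_top

theorem modTwo_intCast_of_even {n : ℤ} (h : 2 ∣ n) : modTwo (n : AlgInts) = 0 := by
  obtain ⟨k, rfl⟩ := h
  rw [Ideal.Quotient.eq_zero_iff_mem, Ideal.mem_span_singleton]
  exact ⟨(k : AlgInts), by push_cast; rfl⟩

theorem modTwo_intCast_of_odd {n : ℤ} (h : ¬ 2 ∣ n) : modTwo (n : AlgInts) = 1 := by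
  have h' : modTwo (((n - 1 : ℤ)) : AlgInts) = 0 := modTwo_intCast_of_even (by omega)
  rw [Int.cast_sub, Int.cast_one, map_sub, map_one, sub_eq_zero] at h'
  exact h'

/-- An integral series as a series of algebraic integers. -/
abbrev intSer : PowerSeries ℤ →+* PowerSeries AlgInts := PowerSeries.map (Int.castRingHom AlgInts)

theorem map_intSer (H : PowerSeries ℤ) : PowerSeries.map algIntsVal (intSer H) = castS H := by
  ext n
  simp [intSer, castS]

/-- A root of unity of order dividing `ℓ`. -/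
def zetaInt (ℓ : ℕ) [NeZero ℓ] (j : ℕ) : AlgInts :=
  ⟨𝕢 (ℓ : ℝ) (j : ℂ), by
    refine IsIntegral.of_pow (NeZero.pos ℓ) ?_
    rw [Periodic.qParam, ← Complex.exp_nat_mul]
    have hℓ : (ℓ : ℂ) ≠ 0 := Nat.cast_ne_zero.mpr (NeZero.ne ℓ)
    rw [show (ℓ : ℂ) * (2 * π * Complex.I * (j : ℂ) / ((ℓ : ℝ) : ℂ)) =
      (j : ℂ) * (2 * π * Complex.I) by push_cast; field_simp, Complex.exp_nat_mul,
      Complex.exp_two_pi_mul_I, one_pow]
    exact isIntegral_one⟩

theorem coe_zetaInt (ℓ : ℕ) [NeZero ℓ] (j : ℕ) :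
    algIntsVal (zetaInt ℓ j) = 𝕢 (ℓ : ℝ) (j : ℂ) := rfl

variable (ℓ : ℕ) [hℓ : Fact ℓ.Prime]

/-- The constant terms of the translates, multiplied by `ℓ`. -/
def orbitConst (K : ℂ) : Option (ZMod ℓ) → ℂ
  | none => ℓ * K
  | some _ => -K

/-- The non-constant parts of the translates, multiplied by `ℓ`, in the variable `𝕢 (ℓ m)`. -/
def orbitRest (m : ℕ) (hm : m ≠ 0) (H : PowerSeries ℤ) : Option (ZMod ℓ) → PowerSeries AlgInts
  | none => PowerSeries.expand (ℓ * m) (Nat.mul_ne_zero hℓ.out.ne_zero hm)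
      (intSer (PowerSeries.C (ℓ : ℤ) * H))
  | some j => PowerSeries.expand m hm (PowerSeries.rescale (zetaInt ℓ j.val) (intSer (-serU ℓ H)))

theorem isQSer_orbit {F : ℍ → ℂ} (hF : IsWeightTwo ℓ F) {K : ℂ} {H : PowerSeries ℤ}
    (hS : IsQSer 1 F (PowerSeries.C K + castS H)) {m : ℕ} (hm : m ≠ 0) (i : Option (ZMod ℓ)) :
    IsQSer ((ℓ * m : ℕ) : ℝ) ((ℓ : ℂ) • gammaOrbit ℓ 2 F i)
      (PowerSeries.C (orbitConst ℓ K i) +
        PowerSeries.map algIntsVal (orbitRest ℓ m hm H i)) := by
  have hℓC : (ℓ : ℂ) ≠ 0 := Nat.cast_ne_zero.mpr hℓ.out.ne_zero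
  rcases i with _ | j
  · have h := (hS.smul (ℓ : ℂ)).expand_period (Nat.mul_ne_zero hℓ.out.ne_zero hm)
    rw [mul_one] at h
    show IsQSer _ ((ℓ : ℂ) • F) _
    convert h using 1
    simp only [orbitConst, orbitRest, PowerSeries.map_expand, map_intSer, castS,
      PowerSeries.smul_eq_C_mul, mul_add, map_add, map_mul, PowerSeries.map_C,
      PowerSeries.expand_C, eq_intCast, Int.cast_natCast]
    simp [map_natCast]
  · have h1 := (hF.isQSer_slash_S hS).smul (ℓ : ℂ)
    have h2 := (h1.comp_affine (m := 1) (j.val : ℤ)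
      (φ := fun τ ↦ ((j.val : ℝ) +ᵥ τ : ℍ)) (fun τ ↦ by simp [add_comm, -ZMod.natCast_val])).expand_period hm
    rw [Nat.cast_one, one_mul, ← Nat.cast_mul, mul_comm m ℓ] at h2
    convert h2.congr (fun τ ↦ ?_) using 1
    · ext n
      simp only [orbitConst, orbitRest, PowerSeries.map_expand, map_add, PowerSeries.coeff_expand,
        PowerSeries.coeff_C, PowerSeries.coeff_map, PowerSeries.coeff_rescale,
        PowerSeries.coeff_smul, coeff_serU, smul_eq_mul, map_mul, map_pow, coe_zetaInt,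
        Int.cast_natCast, map_neg, castS, intSer]
      by_cases h0 : n = 0
      · subst h0
        simp
        field_simp
        ring
      · by_cases hd : m ∣ n
        · have : n / m * ℓ ≠ 0 :=
            Nat.mul_ne_zero (Nat.div_pos (Nat.le_of_dvd (Nat.pos_of_ne_zero h0) hd)
              (Nat.pos_of_ne_zero hm)).ne' hℓ.out.ne_zero
          simp [h0, hd, this]
          field_simp
          first | exact Or.inl trivial | ring | simp
        · simp [h0, hd]
    · simp [gammaOrbit_some_apply]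

theorem constantCoeff_orbitRest {m : ℕ} {hm : m ≠ 0} {H : PowerSeries ℤ} (hH : H.coeff 0 = 0)
    (i : Option (ZMod ℓ)) : (orbitRest ℓ m hm H i).coeff 0 = 0 := by
  rw [PowerSeries.coeff_zero_eq_constantCoeff] at hH
  rcases i with _ | j
  · rw [orbitRest, PowerSeries.coeff_zero_eq_constantCoeff, PowerSeries.constantCoeff_expand,
      ← PowerSeries.coeff_zero_eq_constantCoeff_apply, PowerSeries.coeff_map]
    simp [hH]
  · rw [orbitRest, PowerSeries.coeff_zero_eq_constantCoeff, PowerSeries.constantCoeff_expand,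
      ← PowerSeries.coeff_zero_eq_constantCoeff_apply, PowerSeries.coeff_rescale,
      PowerSeries.coeff_map, map_neg, coeff_serU, zero_mul, PowerSeries.coeff_zero_eq_constantCoeff_apply, hH]
    simp

theorem map_orbitRest_eq_zero {m : ℕ} {hm : m ≠ 0} {H : PowerSeries ℤ}
    (hH : ∀ n, 2 ∣ H.coeff n) (i : Option (ZMod ℓ)) :
    PowerSeries.map modTwo (orbitRest ℓ m hm H i) = 0 := by
  have key : ∀ H' : PowerSeries ℤ, (∀ n, 2 ∣ H'.coeff n) →
      PowerSeries.map modTwo (intSer H') = 0 := fun H' h ↦ by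
    ext n
    rw [PowerSeries.coeff_map, PowerSeries.coeff_map, eq_intCast, map_zero]
    exact modTwo_intCast_of_even (h n)
  rcases i with _ | j
  · rw [orbitRest, PowerSeries.map_expand, key _ fun n ↦ by
      rw [PowerSeries.coeff_C_mul]; exact (hH n).mul_left _, map_zero]
  · rw [orbitRest, PowerSeries.map_expand, ← PowerSeries.rescale_map, key _ fun n ↦ by
      rw [map_neg, coeff_serU]; exact (hH _).neg_right, map_zero, map_zero]

end Fermat.Agent.EIS

end
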