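import Fermat.Agent.EIS.Upper.Shift
import Fermat.Prelude.Def_ModularCurve_ModularUnit

/-!
# From the congruences to `M ∣ num((p - 1)/12)`
-/

set_option autoImplicit false

noncomputable section

open CongruenceSubgroup ModularFormClass

namespace Fermat.Agent.EIS

/-- The arithmetic deduction. -/
theorem mul_gcd_twelve_dvd_of {n M : ℕ} (hn : 2 ∣ n) (hM : M ∣ n)
    (hL : ((M * Nat.gcd n 24 : ℕ) : ℤ) ∣ (n : ℤ) * ((n : ℤ) + 2) * (10 * n - 1))
    (h8 : 2 ∣ M → 8 ∣ n) : M * Nat.gcd n 12 ∣ n := by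
  rcases Nat.eq_zero_or_pos n with rfl | hpos
  · exact dvd_zero _
  have hL' : M * Nat.gcd n 24 ∣ n * (n + 2) * (10 * n - 1) := by
    rw [← Int.natCast_dvd_natCast]
    push_cast [show 1 ≤ 10 * n by omega] at hL ⊢
    exact hL
  by_cases h : 8 ∣ n
  · have hg : Nat.gcd n 24 = 2 * Nat.gcd n 12 := by
      obtain ⟨t, rfl⟩ := h
      rw [show 24 = 8 * 3 by norm_num, Nat.gcd_mul_left,
        show 8 * t = 4 * (2 * t) by ring, show 12 = 4 * 3 by norm_num, Nat.gcd_mul_left,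
        (show Nat.Coprime 2 3 by decide).gcd_mul_left_cancel]
      ring
    rw [hg] at hL'
    obtain ⟨w, hw⟩ : 2 ∣ n + 2 := by omega
    have h1 : M * Nat.gcd n 12 ∣ n * (w * (10 * n - 1)) := by
      refine Nat.dvd_of_mul_dvd_mul_left (show 0 < 2 by norm_num) ?_
      rw [hw] at hL'
      calc 2 * (M * Nat.gcd n 12) = M * (2 * Nat.gcd n 12) := by ring
        _ ∣ n * (2 * w) * (10 * n - 1) := hL'
        _ = 2 * (n * (w * (10 * n - 1))) := by ring
    have hw1 : Nat.Coprime w n := by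
      refine Nat.coprime_of_dvd fun r hr hrw hrn ↦ ?_
      have h3 : r ∣ n + 2 := hw ▸ hrw.mul_left 2
      have h2 : r ∣ 2 := (Nat.dvd_add_right hrn).mp h3
      obtain rfl := (Nat.prime_dvd_prime_iff_eq hr Nat.prime_two).mp h2
      omega
    have hw2 : Nat.Coprime (10 * n - 1) n := by
      refine Nat.coprime_of_dvd fun r hr hrw hrn ↦ hr.one_lt.ne' ?_
      have h3 : r ∣ 10 * n - (10 * n - 1) := Nat.dvd_sub (hrn.mul_left 10) hrw
      rw [show 10 * n - (10 * n - 1) = 1 by omega] at h3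
      exact Nat.dvd_one.mp h3
    have hcop : Nat.Coprime (M * Nat.gcd n 12) (w * (10 * n - 1)) :=
      Nat.Coprime.mul_left
        (((hw1.mul_left hw2).symm).coprime_dvd_left hM)
        (((hw1.mul_left hw2).symm).coprime_dvd_left (Nat.gcd_dvd_left n 12))
    exact hcop.dvd_of_dvd_mul_right h1
  · have hodd : ¬ 2 ∣ M := fun h2 ↦ h (h8 h2)
    have hg : Nat.gcd n 24 = Nat.gcd n 12 := by
      refine Nat.dvd_antisymm (Nat.dvd_gcd (Nat.gcd_dvd_left _ _) ?_)
        (Nat.gcd_dvd_gcd_of_dvd_right _ ⟨2, rfl⟩)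
      have h24 : Nat.gcd n 24 ∣ 24 := Nat.gcd_dvd_right _ _
      have hn24 : ¬ 8 ∣ Nat.gcd n 24 := fun h' ↦ h (h'.trans (Nat.gcd_dvd_left _ _))
      have hle := Nat.le_of_dvd (by norm_num) h24
      generalize Nat.gcd n 24 = d at h24 hn24 hle
      interval_cases d <;> omega
    have hg3 : Nat.gcd n 12 = Nat.gcd n 4 * Nat.gcd n 3 :=
      (show Nat.Coprime 4 3 by decide).gcd_mul n
    rw [hg, hg3] at hL'
    rw [hg3]
    set g4 := Nat.gcd n 4
    set g3 := Nat.gcd n 3 with hg3d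
    have hM2 : Nat.Coprime 2 M := (Nat.prime_two.coprime_iff_not_dvd).mpr hodd
    have h32 : Nat.Coprime 2 g3 :=
      (show Nat.Coprime 2 3 by decide).coprime_dvd_right (Nat.gcd_dvd_right n 3)
    have h2Mg : Nat.Coprime 2 (M * g3) := hM2.mul_right h32
    have h4 : Nat.Coprime g4 (M * g3) :=
      (h2Mg.pow_left 2).coprime_dvd_left (Nat.gcd_dvd_right n 4)
    have hMg : M * g3 ∣ n := by
      have h1 : M * g3 ∣ n * (n + 2) * (10 * n - 1) :=
        Dvd.dvd.trans ⟨g4, by ring⟩ hL'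
      have hc : Nat.Coprime (M * g3) ((n + 2) * (10 * n - 1)) := by
        refine Nat.coprime_of_dvd fun r hr hrM hrw ↦ ?_
        have hr2 : r ≠ 2 := by
          rintro rfl
          exact (Nat.prime_two.coprime_iff_not_dvd.mp h2Mg) hrM
        have hrn : r ∣ n := by
          rcases hr.dvd_mul.mp hrM with h' | h'
          · exact h'.trans hM
          · exact h'.trans (Nat.gcd_dvd_left n 3)
        rcases hr.dvd_mul.mp hrw with h' | h'
        · exact hr2 ((Nat.prime_dvd_prime_iff_eq hr Nat.prime_two).mp ((Nat.dvd_add_right hrn).mp h'))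
        · have h3 : r ∣ 10 * n - (10 * n - 1) := Nat.dvd_sub (hrn.mul_left 10) h'
          rw [show 10 * n - (10 * n - 1) = 1 by omega] at h3
          exact hr.one_lt.ne' (Nat.dvd_one.mp h3)
      rw [mul_assoc] at h1
      exact hc.dvd_of_dvd_mul_right h1
    calc M * (g4 * g3) = g4 * (M * g3) := by ring
      _ ∣ n := h4.mul_dvd_of_dvd_of_dvd (Nat.gcd_dvd_left n 4) hMg

variable {p : ℕ} [hp : Fact p.Prime] {f : CuspForm (Gamma0 p) 2} {a : ℕ → ℤ} {M : ℕ}

theorem dvd_pred_of_congr (hM0 : 0 < M) (ha : ∀ n, qCoeff f n = (a n : ℂ)) (ha0 : a 0 = 0)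
    (hM : ∀ n, n ≠ 0 → (M : ℤ) ∣ a n - sigmaPrime p n) : M ∣ p - 1 := by
  have hp1 : ((p - 1 : ℕ) : ℤ) = (p : ℤ) - 1 := by push_cast [hp.out.one_le]; ring
  have h1 : (M : ℤ) ∣ a 1 - 1 := by
    simpa [sigmaPrime, hp.out.ne_one] using hM 1 one_ne_zero
  refine (Nat.dvd_iff_prime_pow_dvd_dvd (p - 1) M).mpr fun r k hr hk ↦ ?_
  rcases Nat.eq_zero_or_pos k with rfl | hk0
  · simp
  have hra : IsCoprime ((r : ℤ) ^ k) (a 1) := by
    obtain ⟨z, hz⟩ := (Int.natCast_dvd_natCast.mpr hk).trans h1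
    refine ⟨-z, 1, ?_⟩
    push_cast at hz
    linear_combination hz
  -- it suffices to find a good residue `x`
  have main : ∀ (d x u : ℕ), d ∣ 24 → x.Coprime (r ^ k * d) → x ^ 3 - x = d * u →
      u.Coprime r → r ^ k ∣ p - 1 := by
    intro d x u hd hx hxu hu
    have hD : r ^ k * d ∣ 24 * M := by rw [mul_comm 24 M]; exact Nat.mul_dvd_mul hk hd
    have h := dvd_mul_cube_sub hM0 ha ha0 hM hD hx
    have hx3 : ((x : ℤ) ^ 3 - x) = (d : ℤ) * u := by
      have hle : x ≤ x ^ 3 := Nat.le_self_pow (by norm_num) x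
      have := congrArg (Nat.cast : ℕ → ℤ) hxu
      push_cast [hle] at this
      exact this
    rw [hx3] at h
    have hd0 : (d : ℤ) ≠ 0 := by
      exact_mod_cast (Nat.pos_of_dvd_of_pos hd (by norm_num)).ne'
    have h' : (r : ℤ) ^ k ∣ ((p : ℤ) - 1) * (u * a 1) := by
      refine Int.dvd_of_mul_dvd_mul_left hd0 ?_
      push_cast at h
      calc (d : ℤ) * (r : ℤ) ^ k = (r : ℤ) ^ k * d := mul_comm _ _
        _ ∣ ((p : ℤ) - 1) * (d * u) * a 1 := h
        _ = (d : ℤ) * (((p : ℤ) - 1) * (u * a 1)) := by ring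
    have hu' : IsCoprime ((r : ℤ) ^ k) (u : ℤ) :=
      (Int.isCoprime_iff_nat_coprime.mpr (by simpa using hu.symm)).pow_left
    have h'' := (hu'.mul_right hra).dvd_of_dvd_mul_right h'
    rw [← hp1] at h''
    exact_mod_cast h''
  rcases lt_trichotomy r 3 with h | rfl | h
  · obtain rfl : r = 2 := by have := hr.two_le; omega
    refine main 8 3 3 (by norm_num) ?_ (by norm_num) (by norm_num)
    exact Nat.Coprime.mul_right ((show Nat.Coprime 3 2 by decide).pow_right k) (by norm_num)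
  · refine main 3 2 2 (by norm_num) ?_ (by norm_num) (by norm_num)
    exact Nat.Coprime.mul_right ((show Nat.Coprime 2 3 by decide).pow_right k) (by norm_num)
  · refine main 1 2 6 (by norm_num) ?_ (by norm_num) ?_
    · rw [mul_one]
      exact (((Nat.prime_two.coprime_iff_not_dvd).mpr fun h2 ↦ by
        have := (Nat.prime_dvd_prime_iff_eq Nat.prime_two hr).mp h2; omega)).pow_right k
    · rw [show 6 = 2 * 3 by norm_num]
      refine Nat.Coprime.mul_left ?_ ?_
      · exact (Nat.prime_two.coprime_iff_not_dvd).mpr fun h2 ↦ by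
          have := (Nat.prime_dvd_prime_iff_eq Nat.prime_two hr).mp h2; omega
      · exact (Nat.prime_three.coprime_iff_not_dvd).mpr fun h2 ↦ by
          have := (Nat.prime_dvd_prime_iff_eq Nat.prime_three hr).mp h2; omega

/-- All but the case `2 ∣ M`, `p ≡ 7 (mod 8)`. -/
theorem dvd_eisensteinNumerator_of_congr' (hM0 : 0 < M) (ha : ∀ n, qCoeff f n = (a n : ℂ))
    (ha0 : a 0 = 0) (hM : ∀ n, n ≠ 0 → (M : ℤ) ∣ a n - sigmaPrime p n)
    (h7 : 2 ∣ M → p % 8 ≠ 7) : M ∣ ModularCurve.eisensteinNumerator p := by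
  have hMp := dvd_pred_of_congr hM0 ha ha0 hM
  rw [ModularCurve.eisensteinNumerator, Nat.dvd_div_iff_mul_dvd (Nat.gcd_dvd_left _ _), mul_comm]
  rcases eq_or_ne p 2 with rfl | hp2
  · simp [Nat.eq_one_of_dvd_one hMp]
  have hodd : p % 2 = 1 := hp.out.eq_two_or_odd.resolve_left hp2
  refine mul_gcd_twelve_dvd_of (by omega) hMp ?_ fun h2 ↦ ?_
  · have h := dvd_of_congr ha ha0 hM
    push_cast [hp.out.one_le] at h ⊢
    convert h using 1
    ring
  · have h2' : ∀ n, n ≠ 0 → (2 : ℤ) ∣ a n - sigmaPrime p n := fun n hn ↦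
      (Int.natCast_dvd_natCast.mpr h2).trans (hM n hn)
    have := not_mod_eight_of_congr_two ha ha0 h2'
    have := h7 h2
    omega

end Fermat.Agent.EIS

end
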