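import Fermat.Agent.EIS.Upper.Series
import Fermat.Agent.EIS.Modular
import Fermat.Agent.EIS.E2Form
import Fermat.Prelude.Def_ModularForm_HeckeOperator

/-!
# Orbits under `SL₂(ℤ)` of functions invariant under `Γ₀(p)`; the Fricke relation in weight two
-/

set_option autoImplicit false

noncomputable section

open Filter UpperHalfPlane ModularGroup CongruenceSubgroup Topology Function
open scoped Manifold MatrixGroups ModularForm

namespace Fermat.Agent.EIS

section orbit

variable {p : ℕ} [hp : Fact p.Prime] {k : ℤ} {F : ℍ → ℂ}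

/-- The translates of `F` by representatives of `Γ₀(p) \ SL₂(ℤ)`. -/
def gammaOrbit (p : ℕ) [Fact p.Prime] (k : ℤ) (F : ℍ → ℂ) : Option (ZMod p) → ℍ → ℂ
  | none => F
  | some j => F ∣[k] (S * T ^ (j.val : ℤ))

/-- The action of `S` on the cosets. -/
def cosetFunS (p : ℕ) [Fact p.Prime] : Option (ZMod p) → Option (ZMod p)
  | none => some 0
  | some j => if j = 0 then none else some (-j⁻¹)

/-- The permutation of the cosets by `S`. -/
def cosetPermS (p : ℕ) [Fact p.Prime] : Equiv.Perm (Option (ZMod p)) :=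
  Function.Involutive.toPerm (cosetFunS p) (by
    rintro (_ | j)
    · simp [cosetFunS]
    · rcases eq_or_ne j 0 with rfl | hj
      · simp [cosetFunS]
      · simp [cosetFunS, hj, inv_neg])

@[simp] theorem cosetPermS_none : cosetPermS p none = some 0 := rfl

theorem cosetPermS_some (j : ZMod p) :
    cosetPermS p (some j) = if j = 0 then none else some (-j⁻¹) := rfl

/-- The permutation of the cosets by `T`. -/
def cosetPermT (p : ℕ) [Fact p.Prime] : Equiv.Perm (Option (ZMod p)) :=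
  Equiv.optionCongr (Equiv.addRight 1)

theorem gammaOrbit_slash_S (hinv : ∀ γ ∈ Gamma0 p, F ∣[k] γ = F) (i : Option (ZMod p)) :
    gammaOrbit p k F i ∣[k] S = gammaOrbit p k F (cosetPermS p i) := by
  rcases i with _ | j
  · simp [gammaOrbit]
  · simp only [gammaOrbit, ← SlashAction.slash_mul]
    rcases eq_or_ne j 0 with rfl | hj
    · simpa [cosetPermS_some, gammaOrbit] using
        hinv (S * S) (by rw [Gamma0_mem]; simp [coe_S])
    · have hmem := STS_mem_Gamma0 (p := p) (j := (j.val : ℤ)) (i := ((-j⁻¹).val : ℤ))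
        (by simp [hj])
      rw [cosetPermS_some, if_neg hj]
      conv_lhs => rw [← inv_mul_cancel_right (S * T ^ (j.val : ℤ) * S)
        (S * T ^ ((-j⁻¹).val : ℤ)), SlashAction.slash_mul, hinv _ hmem]

theorem gammaOrbit_slash_T (hinv : ∀ γ ∈ Gamma0 p, F ∣[k] γ = F) (i : Option (ZMod p)) :
    gammaOrbit p k F i ∣[k] T = gammaOrbit p k F (cosetPermT p i) := by
  rcases i with _ | j
  · simpa [cosetPermT, gammaOrbit] using hinv T (by rw [Gamma0_mem]; simp [coe_T])
  · simp only [gammaOrbit, cosetPermT, Equiv.optionCongr_apply, Option.map_some,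
      Equiv.coe_addRight, ← SlashAction.slash_mul, mul_assoc, ← zpow_add_one]
    exact slash_ST_congr hinv (by simp)

theorem sum_gammaOrbit_slash (hinv : ∀ γ ∈ Gamma0 p, F ∣[k] γ = F) (γ : SL(2, ℤ)) :
    (∑ i, gammaOrbit p k F i) ∣[k] γ = ∑ i, gammaOrbit p k F i := by
  refine SlashInvariantForm.slash_action_generators_SL2Z ?_ ?_ γ <;> rw [sum_slash_SL]
  · simp only [gammaOrbit_slash_S hinv]
    exact Equiv.sum_comp (cosetPermS p) _
  · simp only [gammaOrbit_slash_T hinv]
    exact Equiv.sum_comp (cosetPermT p) _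

theorem slash_zpow_T_apply (G : ℍ → ℂ) (j : ℤ) (τ : ℍ) :
    (G ∣[k] (T ^ j : SL(2, ℤ))) τ = G ((j : ℝ) +ᵥ τ) := by
  rw [ModularForm.SL_slash_apply, UpperHalfPlane.modular_T_zpow_smul]
  simp [UpperHalfPlane.denom, coe_T_zpow, -map_zpow]

theorem gammaOrbit_some_apply (j : ZMod p) (τ : ℍ) :
    gammaOrbit p k F (some j) τ = (F ∣[k] S) ((j.val : ℝ) +ᵥ τ) := by
  rw [gammaOrbit, SlashAction.slash_mul, slash_zpow_T_apply]
  simp

end orbit

/-- Weight two, invariance under `Γ₀(p)`, holomorphy and boundedness at the two cusps. -/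
structure IsWeightTwo (p : ℕ) (F : ℍ → ℂ) : Prop where
  inv : ∀ γ ∈ Gamma0 p, F ∣[(2 : ℤ)] γ = F
  hol : MDiff F
  bdd : IsBoundedAtImInfty F
  bddS : IsBoundedAtImInfty (F ∣[(2 : ℤ)] S)

namespace IsWeightTwo

variable {p : ℕ} {F G : ℍ → ℂ}

theorem add (hF : IsWeightTwo p F) (hG : IsWeightTwo p G) : IsWeightTwo p (F + G) where
  inv γ hγ := by rw [SlashAction.add_slash, hF.inv γ hγ, hG.inv γ hγ]
  hol := hF.hol.add hG.hol
  bdd := hF.bdd.add hG.bdd
  bddS := by rw [SlashAction.add_slash]; exact hF.bddS.add hG.bddS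

theorem smul (c : ℂ) (hF : IsWeightTwo p F) : IsWeightTwo p (c • F) where
  inv γ hγ := by rw [ModularForm.SL_smul_slash, hF.inv γ hγ]
  hol := hF.hol.const_smul c
  bdd := hF.bdd.const_smul_left c
  bddS := by rw [ModularForm.SL_smul_slash]; exact hF.bddS.const_smul_left c

theorem sub (hF : IsWeightTwo p F) (hG : IsWeightTwo p G) : IsWeightTwo p (F - G) := by
  simpa [sub_eq_add_neg] using hF.add (hG.smul (-1))

theorem isQSer (hF : IsWeightTwo p F) : IsQSer 1 F (qExpansion 1 F) :=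
  isQSer_qExpansion one_pos (by
    intro w
    by_cases hw : 0 < w.im
    · have hw' : 0 < (w + 1).im := by simpa using hw
      have h := congr_fun (hF.inv T (by rw [Gamma0_mem]; simp [coe_T])) ⟨w, hw⟩
      rw [← zpow_one T, slash_zpow_T_apply] at h
      simp only [comp_apply, Complex.ofReal_one, ofComplex_apply_of_im_pos hw, ofComplex_apply_of_im_pos hw']
      rw [← h]
      congr 1
      apply UpperHalfPlane.ext
      simp [add_comm]
    · have hw' : (w + 1).im ≤ 0 := by simpa using not_lt.mp hw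
      simp [ofComplex_apply_of_im_nonpos hw', ofComplex_apply_of_im_nonpos (not_lt.mp hw)])
    hF.hol hF.bdd

variable [hp : Fact p.Prime]

/-- In weight two, `(F ∣ S) (p τ) = -(1/p) (U_p F) τ`. -/
theorem slash_S_mulNat (hF : IsWeightTwo p F) (τ : ℍ) :
    (F ∣[(2 : ℤ)] S) (mulNat p τ) = -(p : ℂ)⁻¹ * ModularForm.heckeU 2 p F τ := by
  have hp0 : p ≠ 0 := hp.out.ne_zero
  have hpC : (p : ℂ) ≠ 0 := Nat.cast_ne_zero.mpr hp0
  set B : ℍ → ℂ := fun z ↦ (F ∣[(2 : ℤ)] S) (mulNat p z) with hB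
  have hD : ∀ z, ModularForm.heckeDiagMatrix p • z = mulNat p z := fun z ↦ by
    apply UpperHalfPlane.ext
    rw [ModularForm.coe_heckeDiagMatrix_smul hp0, coe_mulNat]
  have hBhol : MDiff B := by
    have h1 : MDiff ((F ∣[(2 : ℤ)] S) ∣[(2 : ℤ)] ModularForm.heckeDiagMatrix p) :=
      (mdiff_slash_SL hF.hol S).slash 2 _
    have heq : B = (p : ℂ)⁻¹ • ((F ∣[(2 : ℤ)] S) ∣[(2 : ℤ)] ModularForm.heckeDiagMatrix p) := by
      funext z
      simp [hB, ModularForm.slash_heckeDiagMatrix_apply 2 hp0, hD, hpC]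
    rw [heq]
    exact h1.const_smul _
  have hBbdd : IsBoundedAtImInfty B := by
    have ht : Tendsto (mulNat p) atImInfty atImInfty := by
      have := UpperHalfPlane.tendsto_smul_atImInfty (g := ModularForm.heckeDiagMatrix p)
        (by simp [ModularForm.val_heckeDiagMatrix hp0])
      exact this.congr hD
    exact hF.bddS.comp_tendsto ht
  have hBinv : ∀ γ ∈ Gamma0 p, B ∣[(2 : ℤ)] γ = B := by
    intro γ hγ
    have h : (p : ℤ) ∣ γ 1 0 :=
      (ZMod.intCast_zmod_eq_zero_iff_dvd _ _).mp (Gamma0_mem.mp hγ)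
    have hmem : S * conjGamma p γ h * S⁻¹ ∈ Gamma0 p := by
      rw [Gamma0_mem]
      simp [coe_S, Matrix.SpecialLinearGroup.coe_inv, Matrix.adjugate_fin_two,
        Matrix.SpecialLinearGroup.coe_mul, Matrix.mul_apply, Fin.sum_univ_two]
      simp [conjGamma]
    have hkey : (F ∣[(2 : ℤ)] S) ∣[(2 : ℤ)] conjGamma p γ h = F ∣[(2 : ℤ)] S := by
      rw [← SlashAction.slash_mul, ← inv_mul_cancel_right (S * conjGamma p γ h) S,
        SlashAction.slash_mul, hF.inv _ hmem]
    funext z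
    have h2 := congr_fun hkey (mulNat p z)
    rw [ModularForm.SL_slash_apply, denom_conjGamma, ← mulNat_smul p γ h] at h2
    rw [ModularForm.SL_slash_apply]
    exact h2
  have hBS : ∀ z, (B ∣[(2 : ℤ)] S) z = ((p : ℂ) ^ 2)⁻¹ * F (divNat p z) := by
    intro z
    have hneg : (F ∣[(2 : ℤ)] S) ∣[(2 : ℤ)] S = F := by
      rw [← SlashAction.slash_mul]
      exact hF.inv _ (by rw [Gamma0_mem]; simp [coe_S])
    have h2 := congr_fun hneg (divNat p z)
    rw [ModularForm.SL_slash_apply, denom_S, coe_divNat] at h2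
    rw [ModularForm.SL_slash_apply, denom_S]
    simp only [hB, mulNat_S_smul, ← h2, _root_.zpow_neg, zpow_ofNat]
    have hz : (z : ℂ) ≠ 0 := ne_zero z
    field_simp
  have hbddBS : IsBoundedAtImInfty (B ∣[(2 : ℤ)] S) := by
    rw [funext hBS]
    exact (Filter.const_boundedAtFilter _ _).mul (hF.bdd.comp_tendsto (tendsto_divNat p))
  have htr : traceSum p B = 0 := by
    refine levelOne_weight_two_eq_zero (traceSum_slash hBinv) ?_ ?_
    · exact hBhol.add (by simpa using MDifferentiable.sum fun j _ ↦ mdiff_slash_SL hBhol _)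
    · refine hBbdd.add ?_
      rw [funext fun z ↦ Finset.sum_apply z Finset.univ
        fun j : ZMod p ↦ B ∣[(2 : ℤ)] (S * T ^ (j.val : ℤ))]
      refine Asymptotics.IsBigO.fun_sum fun j _ ↦ ?_
      rw [SlashAction.slash_mul, ModularForm.SL_slash (γ := T ^ (j.val : ℤ))]
      exact hbddBS.slash 2 (mapGL_T_zpow_lower _)
  have h0 := congr_fun htr τ
  simp only [traceSum, Pi.add_apply, Finset.sum_apply, Pi.zero_apply] at h0
  have hterm : ∀ j : ZMod p, (B ∣[(2 : ℤ)] (S * T ^ (j.val : ℤ))) τ =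
      ((p : ℂ) ^ 2)⁻¹ * F (ModularForm.heckeMatrix p j.val • τ) := by
    intro j
    rw [SlashAction.slash_mul, slash_zpow_T_apply, hBS]
    congr 2
    apply UpperHalfPlane.ext
    rw [ModularForm.coe_heckeMatrix_smul hp0, coe_divNat]
    simp [add_comm, -ZMod.natCast_val]
  rw [Finset.sum_congr rfl (fun j _ ↦ hterm j), ← Finset.mul_sum] at h0
  rw [ModularForm.heckeU_apply 2 hp0]
  have hsum : ∑ j : ZMod p, F (ModularForm.heckeMatrix p j.val • τ) =
      ∑ j ∈ Finset.range p, F (ModularForm.heckeMatrix p j • τ) := by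
    refine Finset.sum_bij (fun j _ ↦ j.val) (fun j _ ↦ Finset.mem_range.mpr j.val_lt)
      (fun a _ b _ hab ↦ ZMod.val_injective p hab)
      (fun b hb ↦ ⟨(b : ZMod p), Finset.mem_univ _, ZMod.val_cast_of_lt (Finset.mem_range.mp hb)⟩)
      fun j _ ↦ rfl
  rw [hsum] at h0
  show B τ = _
  linear_combination h0

theorem isQSer_slash_S (hF : IsWeightTwo p F) {S' : PowerSeries ℂ} (hS : IsQSer 1 F S') :
    IsQSer p (F ∣[(2 : ℤ)] S) ((-(p : ℂ)⁻¹) • serU p S') := by
  have h := ((hS.heckeU 2 hp.out.ne_zero).smul (-(p : ℂ)⁻¹)).comp_divNat p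
  rw [mul_one] at h
  refine h.congr fun τ ↦ ?_
  simp only [comp_apply, Pi.smul_apply, smul_eq_mul]
  rw [← hF.slash_S_mulNat]
  have : (p : ℂ) ≠ 0 := Nat.cast_ne_zero.mpr hp.out.ne_zero
  have he : mulNat p (divNat p τ) = τ := UpperHalfPlane.ext (by simp [mul_div_cancel₀ _ this])
  rw [he]

end IsWeightTwo

end Fermat.Agent.EIS

end
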