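import Fermat.Agent.EIS.QSer
import Fermat.Agent.EIS.E2Form
import Fermat.Prelude.Def_ModularForm_HeckeOperator
import Fermat.Prelude.Def_FLTPrelim_Modularity
import Fermat.Prelude.Thm_UpperHalfPlane_qCoeff_heckeU
import Fermat.Prelude.Thm_ModularForm_periodic_heckeU_comp_ofComplex
import Fermat.Prelude.Thm_ModularForm_mdifferentiable_heckeU
import Fermat.Prelude.Thm_ModularForm_isBoundedAtImInfty_heckeU

/-!
# Complements on `q`-series: rescaling and the operator `U`
-/

set_option autoImplicit false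

noncomputable section

open Filter UpperHalfPlane Complex Topology Function
open scoped Manifold Real

namespace Fermat.Agent.EIS

local notation "𝕢" => Function.Periodic.qParam

/-- The effect of `U_p` on series. -/
def serU {R : Type*} [Semiring R] (p : ℕ) (S : PowerSeries R) : PowerSeries R :=
  PowerSeries.mk fun n ↦ S.coeff (n * p)

@[simp] theorem coeff_serU {R : Type*} [Semiring R] (p n : ℕ) (S : PowerSeries R) :
    (serU p S).coeff n = S.coeff (n * p) :=
  PowerSeries.coeff_mk _ _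

theorem map_serU {R R' : Type*} [Semiring R] [Semiring R'] (φ : R →+* R') (p : ℕ)
    (S : PowerSeries R) : PowerSeries.map φ (serU p S) = serU p (PowerSeries.map φ S) := by
  ext n; simp

variable {h : ℝ} {f : ℍ → ℂ} {S : PowerSeries ℂ}

theorem IsQSer.heckeU (hf : IsQSer 1 f S) (k : ℤ) {p : ℕ} (hp : p ≠ 0) :
    IsQSer 1 (ModularForm.heckeU k p f) (serU p S) := by
  have hper : Periodic (f ∘ ofComplex) (1 : ℂ) := by simpa using hf.periodic one_pos
  have hhol := hf.mdiff one_pos
  have hbdd := hf.isBoundedAtImInfty one_pos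
  have h1 := isQSer_qExpansion (h := 1) one_pos
    (by simpa using ModularForm.periodic_heckeU_comp_ofComplex hper k p)
    (ModularForm.mdifferentiable_heckeU hhol k p) (ModularForm.isBoundedAtImInfty_heckeU hbdd k p)
  convert h1
  ext n
  rw [coeff_serU]
  have := UpperHalfPlane.qCoeff_heckeU hper hhol hbdd k hp n
  rw [ModularFormClass.qCoeff, ModularForm.coeffHeckeU_apply, ModularFormClass.qCoeff] at this
  rw [this, hf.qExpansion_eq one_pos]

/-- A series in `𝕢 h` is a series in `𝕢 (m * h)`. -/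
theorem IsQSer.expand_period (hf : IsQSer h f S) {m : ℕ} (hm : m ≠ 0) :
    IsQSer (m * h) f (PowerSeries.expand m hm S) := fun τ ↦ by
  have hq : 𝕢 h (τ : ℂ) = 𝕢 (m * h) τ ^ m := by
    rw [Periodic.qParam, Periodic.qParam, ← Complex.exp_nat_mul]
    congr 1
    have : (m : ℂ) ≠ 0 := Nat.cast_ne_zero.mpr hm
    push_cast
    rcases eq_or_ne (h : ℂ) 0 with h0 | h0
    · simp [h0]
    · field_simp
  have h1 := hf τ
  rw [hq] at h1
  have hinj : Function.Injective (fun n : ℕ ↦ m * n) := mul_right_injective₀ hm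
  refine (hinj.hasSum_iff ?_).mp ?_
  · intro n hn
    have : ¬ m ∣ n := fun ⟨k, hk⟩ ↦ hn ⟨k, hk.symm⟩
    simp [PowerSeries.coeff_expand_of_not_dvd _ _ _ this]
  · refine h1.congr_fun fun n ↦ ?_
    simp [PowerSeries.coeff_expand_mul, pow_mul]

/-- Substituting `(τ + j) / m` for the variable. -/
theorem IsQSer.comp_affine (hf : IsQSer h f S) {m : ℕ} (j : ℤ) {φ : ℍ → ℍ}
    (hφ : ∀ τ : ℍ, (φ τ : ℂ) = (τ + j) / m) :
    IsQSer (m * h) (f ∘ φ) (PowerSeries.rescale (𝕢 (m * h) (j : ℂ)) S) := fun τ ↦ by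
  have hq : 𝕢 h (φ τ : ℂ) = 𝕢 (m * h) (j : ℂ) * 𝕢 (m * h) τ := by
    rw [Periodic.qParam, Periodic.qParam, Periodic.qParam, ← Complex.exp_add, hφ]
    congr 1
    push_cast
    ring
  refine (hf (φ τ)).congr_fun fun n ↦ ?_
  rw [PowerSeries.coeff_rescale, hq, mul_pow]
  ring

theorem IsQSer.comp_divNat (hf : IsQSer h f S) (m : ℕ) [NeZero m] :
    IsQSer (m * h) (f ∘ divNat m) S := by
  have := hf.comp_affine (m := m) 0 (φ := divNat m) (by simp)
  simpa [Periodic.qParam] using this

theorem IsQSer.sub {g : ℍ → ℂ} {S' : PowerSeries ℂ} (hf : IsQSer h f S) (hg : IsQSer h g S') :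
    IsQSer h (f - g) (S - S') := fun τ ↦ by
  simpa [sub_mul] using (hf τ).sub (hg τ)

theorem IsQSer.prod (hh : 0 < h) {ι : Type*} (s : Finset ι) {F : ι → ℍ → ℂ}
    {T : ι → PowerSeries ℂ} (hF : ∀ i ∈ s, IsQSer h (F i) (T i)) :
    IsQSer h (∏ i ∈ s, F i) (∏ i ∈ s, T i) := by
  induction s using Finset.cons_induction with
  | empty =>
    simp only [Finset.prod_empty]
    rw [← map_one (PowerSeries.C (R := ℂ))]
    exact (isQSer_const 1).congr fun τ ↦ rfl
  | cons a s ha ih =>
    rw [Finset.prod_cons, Finset.prod_cons]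
    exact (hF a (Finset.mem_cons_self a s)).mul hh
      (ih fun i hi ↦ hF i (Finset.mem_cons_of_mem hi))

/-- A series with vanishing constant term is zero at infinity. -/
theorem IsQSer.isZeroAtImInfty (hh : 0 < h) (hf : IsQSer h f S) (h0 : S.coeff 0 = 0) :
    IsZeroAtImInfty f := by
  have := hf.tendsto hh
  rwa [h0] at this

end Fermat.Agent.EIS

end
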