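import Fermat.Agent.EIS.Upper.Identities
import Fermat.Agent.MOD.CuspCoeff
import Mathlib.NumberTheory.LSeries.PrimesInAP
import Mathlib.LinearAlgebra.Dimension.Finite
import Mathlib.Algebra.GCDMonoid.Finset

/-!
# The shift trick: an Eisenstein congruence modulo `M` forces `M ∣ p - 1`

If `G` has weight two and is congruent to a constant `c`, then comparing `T_q` in weight four and in
weight two shows that `c (q³ - q) f (q τ)` is congruent to a form of weight four for every prime
`q`; these are too many forms for a lattice of finite rank.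
-/

set_option autoImplicit false

noncomputable section

open Filter UpperHalfPlane ModularGroup CongruenceSubgroup Topology Function ModularFormClass
open scoped Manifold MatrixGroups ModularForm

namespace Fermat.Agent.EIS

variable {p : ℕ} [hp : Fact p.Prime]

/-- The product of a weight two form and a weight two cusp form. -/
def prodCusp {G : ℍ → ℂ} (hG : IsWeightTwo p G) (g : CuspForm (Gamma0 p) 2) :
    CuspForm (Gamma0 p) 4 :=
  gamma0CuspForm (G * ⇑g) 4
    (fun γ hγ ↦ by
      rw [show (4 : ℤ) = 2 + 2 from rfl, ModularForm.mul_slash_SL2 2 2, hG.inv γ hγ,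
        (isWeightTwo_cuspForm g).inv γ hγ])
    (hG.hol.mul (CuspFormClass.holo g))
    (by
      have h := CuspFormClass.zero_at_infty_slash (f := g) (1 : SL(2, ℤ))
      rw [SlashAction.slash_one] at h
      exact (Asymptotics.isLittleO_one_iff ℝ).mp (by
        simpa [one_mul] using! hG.bdd.mul_isLittleO ((Asymptotics.isLittleO_one_iff ℝ).mpr h)))
    (by
      rw [show (4 : ℤ) = 2 + 2 from rfl, ModularForm.mul_slash_SL2 2 2]
      have h := CuspFormClass.zero_at_infty_slash (f := g) S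
      exact (Asymptotics.isLittleO_one_iff ℝ).mp (by
        simpa [one_mul] using! hG.bddS.mul_isLittleO ((Asymptotics.isLittleO_one_iff ℝ).mpr h)))

theorem qCoeff_prodCusp {G : ℍ → ℂ} {A : PowerSeries ℤ} (hG : IsWeightTwo p G)
    (hA : IsQSer 1 G (castS A)) {g : CuspForm (Gamma0 p) 2} {b : ℕ → ℤ}
    (hb : ∀ n, qCoeff g n = (b n : ℂ)) (n : ℕ) :
    qCoeff (prodCusp hG g) n = ((A * PowerSeries.mk b).coeff n : ℂ) := by
  have h := (hA.mul one_pos (isQSer_cuspForm hb)).qExpansion_eq one_pos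
  rw [← map_mul] at h
  show (qExpansion 1 (G * ⇑g)).coeff n = _
  rw [h, PowerSeries.coeff_map, eq_intCast]

theorem dvd_mul_cube_sub {f : CuspForm (Gamma0 p) 2} {a : ℕ → ℤ} {M : ℕ} (hM0 : 0 < M)
    (ha : ∀ n, qCoeff f n = (a n : ℂ)) (ha0 : a 0 = 0)
    (hM : ∀ n, n ≠ 0 → (M : ℤ) ∣ a n - sigmaPrime p n)
    {D : ℕ} (hD : D ∣ 24 * M) {x : ℕ} (hx : x.Coprime D) :
    (D : ℤ) ∣ ((p : ℤ) - 1) * ((x : ℤ) ^ 3 - x) * a 1 := by
  have hM' : ∀ n, ∃ z : ℤ, sigmaPrime p n - a n = M * z := by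
    intro n
    rcases eq_or_ne n 0 with rfl | hn
    · exact ⟨0, by simp [sigmaPrime_zero, ha0]⟩
    · exact (dvd_sub_comm).mp (hM n hn)
  choose H hH using hM'
  set c : ℤ := (p : ℤ) - 1 with hc
  set Gi : PowerSeries ℤ := PowerSeries.C c + PowerSeries.C (24 * M : ℤ) * PowerSeries.mk H with hGi
  have hG : IsWeightTwo p ((24 : ℂ) • (eisE p - ⇑f)) :=
    ((isWeightTwo_eisE p).sub (isWeightTwo_cuspForm f)).smul 24
  have hGs : IsQSer 1 ((24 : ℂ) • (eisE p - ⇑f)) (castS Gi) := by
    rw [smul_sub]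
    convert (isQSer_eisInt p).sub ((isQSer_cuspForm ha).smul (24 : ℂ))
    ext n
    rw [map_sub, PowerSeries.coeff_smul, PowerSeries.coeff_map, PowerSeries.coeff_map,
      PowerSeries.coeff_map, hGi, coeff_eisInt, map_add, PowerSeries.coeff_C_mul,
      PowerSeries.coeff_mk, PowerSeries.coeff_mk, PowerSeries.coeff_C, smul_eq_mul]
    have := congrArg (Int.cast : ℤ → ℂ) (hH n)
    push_cast at this
    rcases eq_or_ne n 0 with rfl | hn
    · simp only [if_true, eq_intCast, ← hc, sigmaPrime_zero, Int.cast_zero, ha0] at this ⊢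
      push_cast
      linear_combination -24 * this
    · simp only [hn, if_false, eq_intCast]
      push_cast
      linear_combination -24 * this
  have hGmul : ∀ (b : ℕ → ℤ) (n : ℕ), (Gi * PowerSeries.mk b).coeff n =
      c * b n + 24 * M * (PowerSeries.mk H * PowerSeries.mk b).coeff n := by
    intro b n
    rw [hGi, add_mul, map_add, mul_assoc, PowerSeries.coeff_C_mul, PowerSeries.coeff_C_mul,
      PowerSeries.coeff_mk]
  -- the family of lattice elements
  have hex : ∀ q : ℕ, q.Prime → q ≠ p → ∃ v : CuspForm.intLattice p 4, ∀ n : ℕ, ∃ z : ℤ,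
      qCoeff (v : CuspForm (Gamma0 p) 4) n =
        ((c * ((q : ℤ) ^ 3 - q) * (if q ∣ n then a (n / q) else 0) + 24 * M * z : ℤ) : ℂ) := by
    intro q hq hqp
    have hqN : ¬ q ∣ p := fun h ↦ hqp ((Nat.prime_dvd_prime_iff_eq hq hp.out).mp h)
    let b : ℕ → ℤ := fun n ↦ a (n * q) + if q ∣ n then (q : ℤ) * a (n / q) else 0
    have hb : ∀ n, qCoeff (CuspForm.heckeTLin 2 hq hqN f) n = (b n : ℂ) := by
      intro n
      rw [ MOD.qCoeff_heckeTLin hq hqN, ha, ha]
      by_cases hqn : q ∣ n <;> simp [b, hqn]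
    set X : CuspForm (Gamma0 p) 4 := CuspForm.heckeTLin 4 hq hqN (prodCusp hG f) -
      prodCusp hG (CuspForm.heckeTLin 2 hq hqN f) with hX
    have key : ∀ n : ℕ, ∃ z : ℤ,
        qCoeff X n =
        ((c * ((q : ℤ) ^ 3 - q) * (if q ∣ n then a (n / q) else 0) + 24 * M * z : ℤ) : ℂ) := by
      intro n
      refine ⟨(PowerSeries.mk H * PowerSeries.mk a).coeff (n * q) +
        (if q ∣ n then (q : ℤ) ^ 3 * (PowerSeries.mk H * PowerSeries.mk a).coeff (n / q) else 0) -
        (PowerSeries.mk H * PowerSeries.mk b).coeff n, ?_⟩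
      rw [← MOD.cuspCoeff_apply, hX, map_sub, MOD.cuspCoeff_apply, MOD.cuspCoeff_apply,
        MOD.qCoeff_heckeTLin hq hqN, qCoeff_prodCusp hG hGs ha, qCoeff_prodCusp hG hGs ha,
        qCoeff_prodCusp hG hGs hb, hGmul, hGmul, hGmul]
      by_cases hqn : q ∣ n
      · simp only [b, hqn, if_true]
        push_cast
        norm_num
        ring
      · simp only [b, hqn, if_false]
        push_cast
        ring
    clear_value X
    have hmem : X ∈ CuspForm.intLattice p 4 :=
      (MOD.mem_intLattice_iff_qCoeff X).mpr fun n ↦ let ⟨z, hz⟩ := key n; ⟨_, hz⟩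
    exact ⟨⟨X, hmem⟩, key⟩
  rcases Nat.eq_zero_or_pos D with rfl | hDpos
  · simp [hM0.ne'] at hD
  haveI : Module.Finite ℤ (CuspForm.intLattice p 4) :=
    Module.Finite.iff_fg.mpr (CuspForm.intLattice_fg p 4)
  set m := Module.finrank ℤ (CuspForm.intLattice p 4) with hm
  haveI : NeZero D := ⟨hDpos.ne'⟩
  have hinf : {q : ℕ | (q.Prime ∧ (q : ZMod D) = x) ∧ q ≠ p}.Infinite := by
    refine ((Nat.infinite_setOfPred_prime_and_eq_mod ((ZMod.isUnit_iff_coprime x D).mpr hx)).sdiff
      (Set.finite_singleton p)).mono ?_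
    rintro q ⟨hq, hqp⟩
    exact ⟨hq, hqp⟩
  let qq : Fin (m + 1) → ℕ := fun i ↦ hinf.natEmbedding _ i
  have hqq : ∀ i, ((qq i).Prime ∧ (qq i : ZMod D) = x) ∧ qq i ≠ p := fun i ↦
    (hinf.natEmbedding _ i).2
  have hinj : Function.Injective qq := fun i j h ↦
    Fin.val_injective ((hinf.natEmbedding _).injective (Subtype.ext h))
  choose v hv using fun i ↦ hex (qq i) (hqq i).1.1 (hqq i).2
  have hdep : ¬ LinearIndependent ℤ v := fun h ↦ by
    have := h.fintype_card_le_finrank
    simp [← hm] at this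
  obtain ⟨g, hg, i₁, hi₁⟩ := Fintype.not_linearIndependent_iff.mp hdep
  obtain ⟨g', hg', hgcd⟩ := Finset.extract_gcd g (Finset.univ_nonempty (α := Fin (m + 1)))
  set G0 : ℤ := (Finset.univ : Finset (Fin (m + 1))).gcd g with hG0
  have hG0ne : G0 ≠ 0 := fun h ↦ hi₁ (by
    rw [hg' i₁ (Finset.mem_univ _), h, zero_mul])
  have hrel : ∑ i, g' i • (v i : CuspForm (Gamma0 p) 4) = 0 := by
    have h1 : ∑ i, g i • (v i : CuspForm (Gamma0 p) 4) = 0 := by
      have := congrArg Subtype.val hg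
      simpa using this
    have h2 : G0 • ∑ i, g' i • (v i : CuspForm (Gamma0 p) 4) = 0 := by
      rw [Finset.smul_sum]
      refine Eq.trans (Finset.sum_congr rfl fun i _ ↦ ?_) h1
      rw [smul_smul, ← hg' i (Finset.mem_univ _)]
    rw [← Int.cast_smul_eq_zsmul ℂ, smul_eq_zero] at h2
    exact h2.resolve_left (Int.cast_ne_zero.mpr hG0ne)
  have hdvd : ∀ i, (D : ℤ) ∣ g' i * (c * ((x : ℤ) ^ 3 - x) * a 1) := by
    intro i
    have h := congrArg (MOD.cuspCoeff p 4 (qq i)) hrel
    simp only [map_sum, map_zsmul, MOD.cuspCoeff_apply, map_zero, zsmul_eq_mul] at h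
    choose z hz using fun k ↦ hv k (qq i)
    simp only [hz, ← Int.cast_mul, ← Int.cast_sum, Int.cast_eq_zero] at h
    rw [← ZMod.intCast_zmod_eq_zero_iff_dvd]
    have h' := congrArg (Int.cast : ℤ → ZMod D) h
    have h24 : ((24 * M : ℕ) : ZMod D) = 0 := (ZMod.natCast_eq_zero_iff _ _).mpr hD
    push_cast at h' h24 ⊢
    simp only [h24, zero_mul, add_zero] at h'
    rw [Finset.sum_eq_single i] at h'
    · simpa [Nat.div_self (hqq i).1.1.pos, (hqq i).1.2] using h'
    · intro k _ hk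
      have : ¬ qq k ∣ qq i := fun hd ↦
        hk (hinj ((Nat.prime_dvd_prime_iff_eq (hqq k).1.1 (hqq i).1.1).mp hd))
      simp [this]
    · simp
  have h := Finset.dvd_gcd (s := (Finset.univ : Finset (Fin (m + 1)))) fun i _ ↦ hdvd i
  rw [Finset.gcd_mul_right, hgcd, one_mul] at h
  exact dvd_normalize_iff.mp h

end Fermat.Agent.EIS

end
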